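import Fermat.Agent.WrightAbelian.Inverse

/-!
# The mean value theorem

A tame nonnegative multiplicative function which at the large primes starts at the exponent `a`
with the value `β (ℓ - 1)` for `p ≡ 1 (mod ℓ)`, `0` otherwise, has sums `~ c x ^ (1/a) (log x) ^
(β - 1)` with `0 < c`, and `o (x ^ (1/a))` for `β = 0`.
-/

set_option autoImplicit false
set_option linter.style.haveILetI false

noncomputable section

open ArithmeticFunction NumberField Filter Topology
open FA.AbelianQuartic (Tame locSum partialSum mean_convolution summable_of_local_above)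
open FA.ElementaryAbelianCount (idealCnt)
open scoped Classical Nat

namespace FA.WrightAbelian

theorem mul_apply_prime {F G : ArithmeticFunction ℝ} (hF : F.IsMultiplicative)
    (hG : G.IsMultiplicative) {p : ℕ} (hp : p.Prime) : (F * G) p = F p + G p := by
  have h := mul_prime_pow F G hp 1
  simp only [Finset.sum_range_succ, Finset.range_zero, Finset.sum_empty, zero_add, Nat.sub_zero,
    Nat.sub_self, pow_zero,
    pow_one, hF.map_one, hG.map_one, one_mul, mul_one] at h
  rw [h, add_comm]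

theorem pow_apply_prime {F : ArithmeticFunction ℝ} (hF : F.IsMultiplicative) {p : ℕ}
    (hp : p.Prime) (β : ℕ) : (F ^ β) p = β * F p := by
  induction β with
  | zero => rw [pow_zero, one_apply, if_neg hp.ne_one, Nat.cast_zero, zero_mul]
  | succ β ih =>
    rw [pow_succ, mul_apply_prime hF.pow hF hp, ih, Nat.cast_succ]
    ring

theorem log_rpow_le {x : ℝ} (hx : 1 ≤ x) {α : ℝ} (hα : 0 < α) (hα1 : α ≤ 1) :
    0 ≤ Real.log (x ^ α) ∧ Real.log (x ^ α) ≤ Real.log x := by
  have h := Real.log_nonneg hx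
  rw [Real.log_rpow (by linarith)]
  exact ⟨mul_nonneg hα.le h, mul_le_of_le_one_left h hα1⟩

variable {f : ArithmeticFunction ℝ} {E : ℕ} {M : ℝ} {a : ℕ} {l : ℕ} [hl : Fact l.Prime] {P β : ℕ}

/-- The correcting factor. -/
def corrFun (f : ArithmeticFunction ℝ) (a l β : ℕ) [Fact l.Prime] : ArithmeticFunction ℝ :=
  f * liftPow a (idealInv l ^ β)

theorem corrFun_facts (hm : f.IsMultiplicative) (hT : Tame f E M) (ha : 0 < a) (hP : l ≤ P)
    (hlow : ∀ p : ℕ, p.Prime → P < p → ∀ e : ℕ, 1 ≤ e → e < a → f (p ^ e) = 0)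
    (htop : ∀ p : ℕ, p.Prime → P < p →
      f (p ^ a) = if p % l = 1 then (β : ℝ) * ((l : ℝ) - 1) else 0)
    (hnn : ∀ n, 0 ≤ f n) :
    (corrFun f a l β).IsMultiplicative ∧
    Summable (fun n : ℕ => |corrFun f a l β n| / (n : ℝ) ^ ((a : ℝ)⁻¹)) ∧
    0 < ∑' n : ℕ, corrFun f a l β n / (n : ℝ) ^ ((a : ℝ)⁻¹) := by
  have hLm : (liftPow a (idealInv l ^ β)).IsMultiplicative :=
    liftPow_isMultiplicative ha.ne' (idealInv_isMultiplicative l).pow
  obtain ⟨E', M', hI⟩ := exists_tame_pow (tame_idealInv l) β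
  have hL := tame_liftPow ha.ne' hI
  have hcm : (corrFun f a l β).IsMultiplicative := hm.mul hLm
  have hs : Summable (fun n : ℕ => |corrFun f a l β n| / (n : ℝ) ^ ((a : ℝ)⁻¹)) := by
    refine summable_of_local_above hcm (r := a + 1) (inv_nonneg.mpr a.cast_nonneg) ?_
      (tame_mul hT hL) (P := P) (hl.out.one_lt.le.trans hP) fun p hp hPp e h1 he => ?_
    · rw [← div_eq_mul_inv, one_lt_div (Nat.cast_pos.mpr ha)]
      exact_mod_cast Nat.lt_succ_self a
    · rw [corrFun, mul_prime_pow f _ hp]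
      rcases (Nat.lt_succ_iff.mp he).lt_or_eq with hea | rfl
      · refine Finset.sum_eq_zero fun i hi => ?_
        rw [Finset.mem_range] at hi
        rcases i.eq_zero_or_pos with rfl | hi0
        · rw [liftPow_prime_pow ha.ne' _ hp, if_neg fun hd =>
            absurd (Nat.le_of_dvd (by omega) hd) (by omega), mul_zero]
        · rw [hlow p hp hPp i hi0 (by omega), zero_mul]
      · rw [Finset.sum_eq_add_of_mem 0 e (Finset.mem_range.mpr (by omega))
          (Finset.mem_range.mpr (by omega)) (by omega) fun i hi hne => by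
            rw [Finset.mem_range] at hi
            rw [hlow p hp hPp i (by omega) (by omega), zero_mul],
          pow_zero, hm.map_one, one_mul, Nat.sub_self, pow_zero, hLm.map_one, mul_one, Nat.sub_zero,
          liftPow_prime_pow ha.ne' _ hp, if_pos dvd_rfl, Nat.div_self ha, pow_one,
          pow_apply_prime (idealInv_isMultiplicative l) hp,
          idealInv_prime l hp (by omega), htop p hp hPp]
        split_ifs <;> ring
  refine ⟨hcm, hs, series_pos hcm (inv_pos.mpr (Nat.cast_pos.mpr ha)) hs fun p => ?_⟩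
  rw [corrFun, locSum_mul hT hL p.2, locSum_liftPow ha.ne' _ p.2,
    locSum_pow (tame_idealInv l) p.2, inv_pow, Real.rpow_inv_natCast_pow (Nat.cast_nonneg _) ha.ne',
    locSum_idealInv l p.2]
  refine mul_pos (one_pos.trans_le ?_) (pow_pos (charFactor_pos l p.2) β)
  have h0 : ∀ e : ℕ, 0 ≤ f ((p : ℕ) ^ e) * ((((p : ℕ) : ℝ) ^ ((a : ℝ)⁻¹))⁻¹) ^ e := fun e =>
    mul_nonneg (hnn _) (by positivity)
  refine le_trans ?_ ((summable_locSum hT p.2 _).le_tsum 0 fun e _ => h0 e)
  rw [pow_zero, pow_zero, hm.map_one, one_mul]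

/-- **The mean value.** -/
theorem exists_mean (hm : f.IsMultiplicative) (hnn : ∀ n, 0 ≤ f n) (hT : Tame f E M) (ha : 0 < a)
    (hP : l ≤ P) (hlow : ∀ p : ℕ, p.Prime → P < p → ∀ e : ℕ, 1 ≤ e → e < a → f (p ^ e) = 0)
    (htop : ∀ p : ℕ, p.Prime → P < p →
      f (p ^ a) = if p % l = 1 then (β : ℝ) * ((l : ℝ) - 1) else 0)
    {b : ℕ} (hb : 1 ≤ b) (hβ : β ≤ b) :
    ∃ c : ℝ, Tendsto (fun x => partialSum f x / (x ^ ((a : ℝ)⁻¹) * Real.log x ^ (b - 1))) atTop
      (𝓝 c) ∧ (β = b → 0 < c) := by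
  haveI : IsCyclotomicExtension {l} ℚ (CyclotomicField l ℚ) :=
    CyclotomicField.isCyclotomicExtension l ℚ
  set K := CyclotomicField l ℚ
  obtain ⟨-, hs, hpos⟩ := corrFun_facts hm hT ha hP hlow htop hnn
  set S := ∑' n : ℕ, corrFun f a l β n / (n : ℝ) ^ ((a : ℝ)⁻¹)
  set α := (a : ℝ)⁻¹ with hα
  have hα0 : 0 < α := inv_pos.mpr (Nat.cast_pos.mpr ha)
  have hα1 : α ≤ 1 := inv_le_one_of_one_le₀ (Nat.one_le_cast.mpr ha)
  have hprod : corrFun f a l β * liftPow a (idealCnt K ^ β) = f := by
    rw [corrFun, mul_assoc, ← liftPow_mul ha.ne', ← mul_pow, idealInv_mul l K, one_pow,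
      liftPow_one ha.ne', mul_one]
  obtain rfl | ⟨γ, rfl⟩ : β = 0 ∨ ∃ γ, β = γ + 1 :=
    (Nat.eq_zero_or_pos β).imp_right fun h => ⟨β - 1, by omega⟩
  · refine ⟨0, ?_, fun h => absurd h (by omega)⟩
    have hone : ∀ x : ℝ, 1 ≤ x →
        partialSum (liftPow a (idealCnt K ^ 0)) x = 1 := fun x hx => by
      rw [pow_zero, liftPow_one ha.ne', partialSum, Finset.sum_eq_single 1]
      · simp
      · intro n _ hn; rw [one_apply, if_neg hn]
      · intro h
        exact absurd (Finset.mem_Ioc.mpr ⟨one_pos, Nat.le_floor (by simpa using hx)⟩) h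
    have hlim : Tendsto (fun x => partialSum (liftPow a (idealCnt K ^ 0)) x /
        (x ^ α * Real.log x ^ 0)) atTop (𝓝 0) := by
      refine ((tendsto_rpow_atTop hα0).inv_tendsto_atTop).congr' ?_
      filter_upwards [eventually_ge_atTop 1] with x hx
      rw [hone x hx, pow_zero, mul_one, one_div, Pi.inv_apply]
    have h := mean_convolution (C := 1) 0 hlim (fun x hx => by
      rw [hone x hx, abs_one, one_mul, pow_zero, mul_one]
      exact Real.one_le_rpow hx hα0.le) hs
    rw [hprod, zero_mul] at h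
    have hbig : ∀ᶠ x : ℝ in atTop, 1 ≤ Real.log x :=
      Real.tendsto_log_atTop.eventually_ge_atTop 1
    refine squeeze_zero_norm' ?_ (h.norm.trans (by rw [norm_zero]))
    filter_upwards [hbig, eventually_gt_atTop 1] with x hL hx
    rw [pow_zero, mul_one, ← div_div, norm_div, Real.norm_of_nonneg
      (pow_nonneg (by linarith : 0 ≤ Real.log x) _)]
    exact div_le_self (norm_nonneg _) (one_le_pow₀ hL)
  · obtain ⟨hInn, hI⟩ := tendsto_idealPow K γ
    obtain ⟨C, hC⟩ := exists_bound hInn γ hI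
    set R := dedekindZeta_residue K ^ (γ + 1) / (γ ! : ℝ)
    have hR : 0 < R := div_pos (pow_pos (dedekindZeta_residue_pos K) _)
      (Nat.cast_pos.mpr (Nat.factorial_pos γ))
    have hC0 : 0 ≤ C := by
      have := hC 1 le_rfl
      simp only [mul_one, Real.log_one, add_zero, one_pow] at this
      exact (abs_nonneg _).trans this
    have hlim : Tendsto (fun x => partialSum (liftPow a (idealCnt K ^ (γ + 1))) x /
        (x ^ α * Real.log x ^ γ)) atTop (𝓝 (α ^ γ * R)) := by
      refine ((hI.comp (tendsto_rpow_atTop hα0)).const_mul (α ^ γ)).congr' ?_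
      filter_upwards [eventually_gt_atTop 1] with x hx
      have hl : Real.log x ≠ 0 := (Real.log_pos hx).ne'
      have hx' : x ^ α ≠ 0 := (Real.rpow_pos_of_pos (by linarith) α).ne'
      have hα' : α ≠ 0 := hα0.ne'
      simp only [Function.comp]
      rw [partialSum_liftPow ha.ne' _ (by linarith), ← hα, Real.log_rpow (by linarith), mul_pow]
      field_simp
    have h := mean_convolution (C := C) γ hlim (fun x hx => by
      rw [partialSum_liftPow ha.ne' _ (by linarith), ← hα]
      obtain ⟨h0, h1⟩ := log_rpow_le hx hα0 hα1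
      refine (hC _ (Real.one_le_rpow hx hα0.le)).trans ?_
      exact mul_le_mul_of_nonneg_left (pow_le_pow_left₀ (by linarith) (by linarith) _)
        (mul_nonneg hC0 (Real.rpow_nonneg (by linarith) _))) hs
    rw [hprod] at h
    obtain ⟨d, hd⟩ : ∃ d, b - 1 = γ + d := ⟨b - 1 - γ, by omega⟩
    rw [hd]
    rcases d.eq_zero_or_pos with rfl | hd0
    · exact ⟨_, h, fun _ => mul_pos (mul_pos (pow_pos hα0 γ) hR) hpos⟩
    · refine ⟨0, ?_, fun e => absurd e (by omega)⟩
      have h2 := h.mul ((tendsto_pow_atTop hd0.ne').comp Real.tendsto_log_atTop).inv_tendsto_atTop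
      rw [mul_zero] at h2
      refine h2.congr fun x => ?_
      simp only [Pi.inv_apply, Function.comp]
      rw [pow_add, ← mul_assoc (x ^ α), ← div_eq_mul_inv, div_div]

end FA.WrightAbelian
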