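import Fermat.Agent.ElementaryAbelianCount.Fields
import Mathlib.GroupTheory.FiniteAbelian.Duality

/-!
# The group of a field of characters

The Galois group of the field of a group `H` of characters is isomorphic to `H`: its dual maps onto
`H` through restriction to the field, and a finite abelian group is isomorphic to its dual.
-/

set_option autoImplicit false
set_option linter.style.haveILetI false

noncomputable section

open NumberField DirichletCharacter IntermediateField Module
open FA.CubicCount (rootsField)
open FA.AbelianQuartic (charsField)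
open scoped Classical

namespace FA.WrightAbelian

variable (N : ℕ) [NeZero N]

set_option backward.isDefEq.respectTransparency false in
/-- **The Galois group is the group of characters.** -/
theorem nonempty_galEquiv (H : Subgroup (DirichletCharacter ℂ N)) :
    Nonempty (Gal(charsField N H/ℚ) ≃* H) := by
  set iso := IsCyclotomicExtension.Rat.intermediateFieldEquivSubgroupChar N (rootsField N) ℂ
    with hiso
  set E := iso.symm H with hE
  haveI : IsAbelianGalois ℚ E := inferInstance
  letI : CommGroup Gal(E/ℚ) := { (inferInstance : Group Gal(E/ℚ)) with mul_comm := mul_comm' }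
  haveI : FiniteDimensional ℚ E := inferInstance
  let e : Gal(charsField N H/ℚ) ≃* Gal(E/ℚ) := (liftAlgEquiv E).symm.autCongr
  let ι := IsCyclotomicExtension.Rat.galEquivZMod N (rootsField N)
  let res : (ZMod N)ˣ →* Gal(E/ℚ) :=
    (AlgEquiv.restrictNormalHom (F := ℚ) (K₁ := rootsField N) E).comp ι.symm.toMonoidHom
  have hsurj : Function.Surjective res :=
    (AlgEquiv.restrictNormalHom_surjective (F := ℚ) (K₁ := E) (E := rootsField N)).comp
      ι.symm.surjective
  let Φ : (Gal(E/ℚ) →* ℂˣ) →* DirichletCharacter ℂ N :=
    { toFun := fun ψ => MulChar.ofUnitHom (ψ.comp res)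
      map_one' := MulChar.ext fun u => by
        rw [MulChar.ofUnitHom_coe, MonoidHom.one_comp, MonoidHom.one_apply, Units.val_one,
          MulChar.one_apply_coe]
      map_mul' := fun ψ ψ' => MulChar.ext fun u => by
        rw [MulChar.mul_apply, MulChar.ofUnitHom_coe, MulChar.ofUnitHom_coe, MulChar.ofUnitHom_coe,
          MonoidHom.mul_comp, MonoidHom.mul_apply, Units.val_mul] }
  have hinj : Function.Injective Φ := fun ψ ψ' h => by
    refine (MonoidHom.cancel_right hsurj).mp (MonoidHom.ext fun u => Units.ext ?_)
    have h' := congrArg (fun χ : DirichletCharacter ℂ N => χ (u : ZMod N)) h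
    simpa [Φ, MulChar.ofUnitHom_coe] using h'
  have hle : Φ.range ≤ H := by
    rintro _ ⟨ψ, rfl⟩
    rw [← iso.apply_symm_apply H]
    refine (IsCyclotomicExtension.Rat.mem_intermediateFieldEquivSubgroupChar_iff N (rootsField N) ℂ
      E (Φ ψ)).mpr fun σ hσ => ?_
    have h1 : res (ι σ) = 1 := by
      show AlgEquiv.restrictNormalHom (F := ℚ) E (ι.symm (ι σ)) = 1
      rw [ι.symm_apply_apply]
      show σ.restrictNormal E = 1
      rw [AlgEquiv.restrictNormal_eq_one_iff, ← IntermediateField.mem_fixingSubgroup_iff]
      exact hσ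
    show MulChar.ofUnitHom (ψ.comp res) ((ι σ : (ZMod N)ˣ) : ZMod N) = 1
    rw [MulChar.ofUnitHom_coe, MonoidHom.comp_apply, h1, map_one, Units.val_one]
  have hcard : Nat.card H = Nat.card Φ.range := by
    rw [Nat.card_congr (MonoidHom.ofInjective hinj).symm.toEquiv,
      CommGroup.card_monoidHom_of_hasEnoughRootsOfUnity Gal(E/ℚ) ℂ, IsGalois.card_aut_eq_finrank,
      ← IsCyclotomicExtension.Rat.card_intermediateFieldEquivSubgroupChar N (rootsField N) ℂ E,
      ← hiso, hE, iso.apply_symm_apply]
  have heq : Φ.range = H := by
    refine SetLike.coe_injective (Set.eq_of_subset_of_ncard_le hle ?_ (Set.toFinite _))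
    rw [← Nat.card_coe_set_eq, ← Nat.card_coe_set_eq]
    exact hcard.le
  obtain ⟨d⟩ := CommGroup.monoidHom_mulEquiv_of_hasEnoughRootsOfUnity Gal(E/ℚ) ℂ
  exact ⟨(e.trans d.symm).trans ((MonoidHom.ofInjective hinj).trans (MulEquiv.subgroupCongr heq))⟩

end FA.WrightAbelian
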