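import Fermat.Agent.AbelianQuartic.Tally
import Mathlib.RingTheory.ZMod.UnitsCyclic
import Mathlib.GroupTheory.OrderOfElement

/-!
# Characters of prime power level killed by `n`

There are at most `4 ^ n` of them at every level, so their conductors have bounded exponents; for
`p > n` the conductor divides `p`.
-/

set_option autoImplicit false
set_option linter.style.haveILetI false

noncomputable section

open DirichletCharacter
open FA.AbelianQuartic (exists_changeLevel)
open scoped Classical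

namespace FA.WrightAbelian

/-- The number of characters mod `N` killed by `n`. -/
def rootCount (n N : ℕ) : ℕ := Nat.card {χ : DirichletCharacter ℂ N // χ ^ n = 1}

theorem rootCount_eq (n N : ℕ) [NeZero N] :
    rootCount n N = Nat.card {u : (ZMod N)ˣ // u ^ n = 1} := by
  obtain ⟨E⟩ := DirichletCharacter.mulEquiv_units ℂ N
  exact Nat.card_congr (E.toEquiv.subtypeEquiv fun χ => by simp [← map_pow])

theorem rootCount_cyclic (n : ℕ) {p : ℕ} (hp : p.Prime) (hp2 : p ≠ 2) (k : ℕ) :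
    rootCount n (p ^ k) = (Nat.totient (p ^ k)).gcd n := by
  haveI : NeZero (p ^ k) := ⟨pow_ne_zero _ hp.ne_zero⟩
  haveI := ZMod.isCyclic_units_of_prime_pow p hp hp2 k
  rw [rootCount_eq, ← ZMod.card_units_eq_totient, ← Nat.card_eq_fintype_card]
  refine (Nat.card_congr (Equiv.subtypeEquivRight
    (q := fun u : (ZMod (p ^ k))ˣ => u ∈ (powMonoidHom n : (ZMod (p ^ k))ˣ →* _).ker)
    fun u => ?_)).trans (IsCyclic.card_powMonoidHom_ker (G := (ZMod (p ^ k))ˣ) n)
  rw [MonoidHom.mem_ker, powMonoidHom_apply]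

theorem card_sq_eq_one_two_pow (e : ℕ) :
    Nat.card {u : (ZMod (2 ^ e))ˣ // u ^ 2 = 1} ≤ 4 := by
  rcases le_or_gt e 2 with he | he
  · refine (Finite.card_subtype_le _).trans ?_
    rw [Nat.card_eq_fintype_card, ZMod.card_units_eq_totient]
    refine (Nat.totient_le _).trans ((Nat.pow_le_pow_right two_pos he).trans ?_)
    norm_num
  obtain ⟨i, rfl⟩ : ∃ i, e = i + 2 := ⟨e - 2, by omega⟩
  set h : ZMod (2 ^ (i + 2)) := 2 ^ (i + 1) with hh
  set T : Finset (ZMod (2 ^ (i + 2))) := {1, -1, 1 + h, -1 + h}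
  have h2 : h * 2 = 0 := by
    rw [hh, ← pow_succ]
    exact_mod_cast ZMod.natCast_self (2 ^ (i + 2))
  have hhalf : ∀ t : ℤ, (t : ZMod (2 ^ (i + 2))) * h = 0 ∨ (t : ZMod (2 ^ (i + 2))) * h = h := by
    intro t
    rcases Int.even_or_odd t with ⟨s, rfl⟩ | ⟨s, rfl⟩
    · refine Or.inl ?_
      push_cast
      linear_combination (s : ZMod (2 ^ (i + 2))) * h2
    · refine Or.inr ?_
      push_cast
      linear_combination (s : ZMod (2 ^ (i + 2))) * h2
  have key : ∀ u : {u : (ZMod (2 ^ (i + 2)))ˣ // u ^ 2 = 1}, (u.1 : ZMod (2 ^ (i + 2))) ∈ T := by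
    rintro ⟨u, hu⟩
    obtain ⟨x, hx⟩ := ZMod.intCast_surjective (u : ZMod (2 ^ (i + 2)))
    have hsq : ((x ^ 2 - 1 : ℤ) : ZMod (2 ^ (i + 2))) = 0 := by
      push_cast
      rw [hx, ← Units.val_pow_eq_pow_val, hu, Units.val_one, sub_self]
    rw [ZMod.intCast_zmod_eq_zero_iff_dvd, Nat.cast_pow, Nat.cast_ofNat] at hsq
    obtain ⟨k, rfl⟩ : Odd x := by
      rw [← Int.not_even_iff_odd, even_iff_two_dvd]
      intro hd
      have h2' : (2 : ℤ) ∣ x ^ 2 - 1 := (dvd_pow_self 2 (by omega)).trans hsq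
      have h1 := dvd_sub (dvd_pow hd two_ne_zero) h2'
      norm_num at h1
    rw [show (2 * k + 1) ^ 2 - 1 = 2 ^ 2 * (k * (k + 1)) by ring, pow_add, mul_comm,
      Int.mul_dvd_mul_iff_left (by norm_num)] at hsq
    simp only [T, Finset.mem_insert, Finset.mem_singleton]
    have hp2 : Prime (2 : ℤ) := Int.prime_two
    by_cases hk : (2 : ℤ) ∣ k
    · obtain ⟨t, rfl⟩ := hp2.pow_dvd_of_dvd_mul_right i (fun h' => by
        have h1 := dvd_sub h' hk
        norm_num at h1) hsq
      have e : ((2 * (2 ^ i * t) + 1 : ℤ) : ZMod (2 ^ (i + 2))) =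
          1 + (t : ZMod (2 ^ (i + 2))) * h := by rw [hh]; push_cast; ring
      rw [← hx, e]
      rcases hhalf t with h' | h' <;> rw [h'] <;> simp
    · obtain ⟨t, ht⟩ := hp2.pow_dvd_of_dvd_mul_left i hk hsq
      obtain rfl : k = 2 ^ i * t - 1 := by linarith
      have e : ((2 * (2 ^ i * t - 1) + 1 : ℤ) : ZMod (2 ^ (i + 2))) =
          -1 + (t : ZMod (2 ^ (i + 2))) * h := by rw [hh]; push_cast; ring
      rw [← hx, e]
      rcases hhalf t with h' | h' <;> rw [h'] <;> simp
  refine (Nat.card_le_card_of_injective (fun u => (⟨_, key u⟩ : T)) fun u v huv =>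
    Subtype.ext (Units.ext (congrArg Subtype.val huv))).trans ?_
  rw [Nat.card_eq_finsetCard]
  exact (Finset.card_insert_le _ _).trans (Nat.succ_le_succ ((Finset.card_insert_le _ _).trans
    (Nat.succ_le_succ ((Finset.card_insert_le _ _).trans (by rw [Finset.card_singleton])))))

theorem card_two_pow_root (e j : ℕ) :
    Nat.card {u : (ZMod (2 ^ e))ˣ // u ^ 2 ^ j = 1} ≤ 4 ^ j := by
  set G := (ZMod (2 ^ e))ˣ
  induction j with
  | zero =>
    haveI : Subsingleton {u : G // u ^ 2 ^ 0 = 1} :=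
      ⟨fun u v => Subtype.ext (by simpa using u.2.trans v.2.symm)⟩
    exact Finite.card_le_one_iff_subsingleton.mpr inferInstance
  | succ j ih =>
    rw [Nat.card_eq_fintype_card, Fintype.card_subtype] at ih ⊢
    rw [pow_succ 4, mul_comm (4 ^ j)]
    refine (Finset.card_le_mul_card_image _ 4 (f := fun u : G => u ^ 2) fun y hy => ?_).trans
      (Nat.mul_le_mul_left 4 ((Finset.card_le_card fun y hy => ?_).trans ih))
    · obtain ⟨v, -, rfl⟩ := Finset.mem_image.mp hy
      refine le_trans ?_ (card_sq_eq_one_two_pow e)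
      rw [Nat.card_eq_fintype_card, Fintype.card_subtype]
      refine Finset.card_le_card_of_injOn (fun u => u * v⁻¹) (fun u hu => ?_)
        fun u _ w _ h => mul_right_cancel h
      have hu2 : u ^ 2 = v ^ 2 := (Finset.mem_filter.mp hu).2
      simp only [Finset.coe_filter, Finset.mem_univ, true_and, Set.mem_ofPred_eq]
      rw [mul_pow, hu2, inv_pow, mul_inv_cancel]
    · obtain ⟨v, hv, rfl⟩ := Finset.mem_image.mp hy
      refine Finset.mem_filter.mpr ⟨Finset.mem_univ _, ?_⟩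
      rw [← pow_mul, ← pow_succ']
      exact (Finset.mem_filter.mp hv).2

theorem rootCount_le {n : ℕ} (hn : n ≠ 0) {p : ℕ} (hp : p.Prime) (k : ℕ) :
    rootCount n (p ^ k) ≤ 4 ^ n := by
  rcases eq_or_ne p 2 with rfl | hp2
  · haveI : NeZero (2 ^ k) := ⟨pow_ne_zero _ two_ne_zero⟩
    rw [rootCount_eq]
    refine le_trans ?_ (card_two_pow_root k n)
    refine Nat.card_le_card_of_injective (fun u => ⟨u.1, ?_⟩) fun u v h =>
      Subtype.ext (congrArg (fun w => w.1) h)
    have h1 : orderOf u.1 ∣ n := orderOf_dvd_of_pow_eq_one u.2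
    have h2 : orderOf u.1 ∣ 2 ^ k := by
      refine (orderOf_dvd_natCard u.1).trans ?_
      rw [Nat.card_eq_fintype_card, ZMod.card_units_eq_totient]
      rcases k with _ | k
      · simp
      · rw [Nat.totient_prime_pow_succ Nat.prime_two, show (2 - 1) = 1 from rfl, mul_one]
        exact pow_dvd_pow 2 k.le_succ
    obtain ⟨i, -, hi⟩ := (Nat.dvd_prime_pow Nat.prime_two).mp h2
    refine orderOf_dvd_iff_pow_eq_one.mp (hi ▸ pow_dvd_pow 2 ?_)
    have h3 : 2 ^ i ≤ n := hi ▸ Nat.le_of_dvd (Nat.pos_of_ne_zero hn) h1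
    have := i.lt_two_pow_self
    omega
  · rw [rootCount_cyclic n hp hp2]
    refine (Nat.gcd_le_right _ (Nat.pos_of_ne_zero hn)).trans ?_
    exact (Nat.lt_pow_self (by norm_num)).le

theorem rootCount_mul_gcd {n : ℕ} (hn : n ≠ 0) {p : ℕ} (hp : p.Prime) (hpn : n < p) (hp2 : p ≠ 2)
    (k : ℕ) : rootCount n (p ^ (k + 1)) = (p - 1).gcd n := by
  rw [rootCount_cyclic n hp hp2, Nat.totient_prime_pow_succ hp]
  exact Nat.Coprime.gcd_mul_left_cancel _ (Nat.Coprime.pow_left k
    (hp.coprime_iff_not_dvd.mpr fun h => by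
      have := Nat.le_of_dvd (Nat.pos_of_ne_zero hn) h
      omega))

/-- **Tame primes.** -/
theorem conductor_dvd_tame {n : ℕ} (hn : n ≠ 0) {p : ℕ} (hp : p.Prime) (hpn : n < p) (hp2 : p ≠ 2)
    (k : ℕ) {χ : DirichletCharacter ℂ (p ^ (k + 1))} (hχ : χ ^ n = 1) : χ.conductor ∣ p := by
  haveI : NeZero p := ⟨hp.ne_zero⟩
  haveI : NeZero (p ^ (k + 1)) := ⟨pow_ne_zero _ hp.ne_zero⟩
  have hd : p ∣ p ^ (k + 1) := dvd_pow_self p k.succ_ne_zero
  let F : {ψ : DirichletCharacter ℂ p // ψ ^ n = 1} →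
      {χ : DirichletCharacter ℂ (p ^ (k + 1)) // χ ^ n = 1} := fun ψ =>
    ⟨changeLevel hd ψ.1, by rw [← map_pow, ψ.2, map_one]⟩
  have hF : Function.Bijective F := by
    refine (Nat.bijective_iff_injective_and_card F).mpr ⟨fun a b h =>
      Subtype.ext (changeLevel_injective hd (congrArg Subtype.val h)), ?_⟩
    have h1 := rootCount_mul_gcd hn hp hpn hp2 0
    rw [zero_add, pow_one] at h1
    exact h1.trans (rootCount_mul_gcd hn hp hpn hp2 k).symm
  obtain ⟨ψ, hψ⟩ := hF.2 ⟨χ, hχ⟩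
  obtain rfl : changeLevel hd ψ.1 = χ := congrArg Subtype.val hψ
  rw [conductor_changeLevel]
  exact conductor_dvd_level _

theorem card_exponents_le {n : ℕ} (hn : n ≠ 0) {p : ℕ} (hp : p.Prime) (T : Finset ℕ)
    (hT : ∀ j ∈ T, ∃ χ : DirichletCharacter ℂ (p ^ j), χ ^ n = 1 ∧ χ.conductor = p ^ j) :
    T.card ≤ 4 ^ n := by
  set m := T.sup id
  haveI : NeZero (p ^ m) := ⟨pow_ne_zero _ hp.ne_zero⟩
  choose χ hχ hc using hT
  refine le_trans ?_ (rootCount_le hn hp m)
  rw [← Nat.card_eq_finsetCard]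
  let F : T → {ψ : DirichletCharacter ℂ (p ^ m) // ψ ^ n = 1} := fun j =>
    ⟨changeLevel (pow_dvd_pow p (Finset.le_sup (f := id) j.2)) (χ j.1 j.2),
      by rw [← map_pow, hχ, map_one]⟩
  refine Nat.card_le_card_of_injective F fun i j h => Subtype.ext ?_
  haveI : NeZero (p ^ (i : ℕ)) := ⟨pow_ne_zero _ hp.ne_zero⟩
  haveI : NeZero (p ^ (j : ℕ)) := ⟨pow_ne_zero _ hp.ne_zero⟩
  have h' := congrArg (fun ψ => DirichletCharacter.conductor ψ.1) h
  simp only [F, conductor_changeLevel, hc] at h'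
  exact Nat.pow_right_injective hp.two_le h'

/-- **Bounded exponents.** -/
theorem exists_exponent_bound {n : ℕ} (hn : n ≠ 0) :
    ∃ E : ℕ, ∀ p : ℕ, p.Prime → ∀ (k : ℕ) (χ : DirichletCharacter ℂ (p ^ k)), χ ^ n = 1 →
      ∀ j, χ.conductor = p ^ j → j < E := by
  set S : ℕ → Set ℕ := fun p =>
    {j | ∃ χ : DirichletCharacter ℂ (p ^ j), χ ^ n = 1 ∧ χ.conductor = p ^ j}
  have hfin : ∀ p : ℕ, p.Prime → (S p).Finite := fun p hp => by
    by_contra h
    obtain ⟨T, hT, hcard⟩ := Set.Infinite.exists_subset_card_eq h (4 ^ n + 1)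
    have := card_exponents_le hn hp T fun j hj => hT hj
    omega
  set B : ℕ → ℕ := fun p => if hp : p.Prime then (hfin p hp).toFinset.sup id else 0
  refine ⟨(Finset.range (max n 2 + 1)).sup B + 2, fun p hp k χ hχ j hj => ?_⟩
  haveI : NeZero (p ^ k) := ⟨pow_ne_zero _ hp.ne_zero⟩
  rcases le_or_gt p (max n 2) with hle | hgt
  · have hjk : p ^ j ∣ p ^ k := hj ▸ χ.conductor_dvd_level
    haveI : NeZero (p ^ j) := ⟨pow_ne_zero _ hp.ne_zero⟩
    obtain ⟨ψ, rfl⟩ := exists_changeLevel hjk (hj ▸ dvd_rfl : χ.conductor ∣ p ^ j)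
    rw [conductor_changeLevel] at hj
    rw [← map_pow, map_eq_one_iff _ (changeLevel_injective hjk)] at hχ
    have hmem : j ∈ S p := ⟨ψ, hχ, hj⟩
    have h1 : j ≤ B p := by
      simp only [B, dif_pos hp]
      exact Finset.le_sup (f := id) ((hfin p hp).mem_toFinset.mpr hmem)
    have h2 : B p ≤ (Finset.range (max n 2 + 1)).sup B :=
      Finset.le_sup (Finset.mem_range.mpr (by omega))
    omega
  · rcases k with _ | k
    · have hd := χ.conductor_dvd_level
      rw [hj, pow_zero, Nat.dvd_one, Nat.pow_eq_one] at hd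
      rcases hd with h | h
      · exact absurd h hp.ne_one
      · omega
    · have h := hj ▸ conductor_dvd_tame hn hp (by omega) (by omega) k hχ
      have h1 := Nat.le_of_dvd hp.pos h
      have : j ≤ 1 := (Nat.pow_le_pow_iff_right hp.one_lt).mp (by rwa [pow_one])
      omega

end FA.WrightAbelian
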