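import Fermat.Agent.AbelianQuartic.Convolution
import Fermat.Agent.WrightAbelian.RootBound
import Mathlib.GroupTheory.QuotientGroup.Basic
import Mathlib.GroupTheory.SpecificGroups.Cyclic

/-!
# Homomorphisms to characters by the product of the conductors

For a finite abelian group `G` of order `n` and a subgroup `K` the homomorphisms to characters
trivial on `K` are counted by a tame multiplicative function. At `p > n` the exponent is `n` less
the order of the kernel: at least `n - n / ℓ`, with equality for kernels of index `ℓ = minFac n`.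
-/

set_option autoImplicit false
set_option linter.style.haveILetI false

noncomputable section

open DirichletCharacter
open FA.AbelianQuartic (joinChar joinChar_bijective conductor_joinChar exists_changeLevel Tame)
open scoped Classical

namespace FA.WrightAbelian

variable {G : Type*} [CommGroup G] [Fintype G]

/-- The product of the conductors of all values. -/
def homCond {N : ℕ} (φ : G →* DirichletCharacter ℂ N) : ℕ := ∏ g : G, (φ g).conductor

theorem finite_hom (N : ℕ) [NeZero N] : Finite (G →* DirichletCharacter ℂ N) :=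
  Finite.of_injective (fun φ => (φ : G → DirichletCharacter ℂ N)) DFunLike.coe_injective

/-- The homomorphisms trivial on `K` with product of conductors `d`. -/
def homTally (K : Subgroup G) (N d : ℕ) : ℕ :=
  Nat.card {φ : G →* DirichletCharacter ℂ N // K ≤ φ.ker ∧ homCond φ = d}

/-- The homomorphisms trivial on `K` by the product of conductors. -/
def homCnt (K : Subgroup G) : ArithmeticFunction ℝ :=
  ⟨fun d => if d = 0 then 0 else (homTally K d d : ℝ), if_pos rfl⟩

variable (K : Subgroup G)

theorem homCnt_apply {d : ℕ} (hd : d ≠ 0) : homCnt K d = (homTally K d d : ℝ) := if_neg hd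

theorem homCnt_nonneg (d : ℕ) : 0 ≤ homCnt K d := by
  rcases eq_or_ne d 0 with rfl | hd
  · simp
  · rw [homCnt_apply K hd]; exact Nat.cast_nonneg _

theorem homCond_comp_changeLevel {N m : ℕ} [NeZero N] (h : m ∣ N)
    (φ : G →* DirichletCharacter ℂ m) : homCond ((changeLevel h).comp φ) = homCond φ :=
  Finset.prod_congr rfl fun g _ => by rw [MonoidHom.comp_apply, conductor_changeLevel]

omit [Fintype G] in
theorem ker_comp_changeLevel {N m : ℕ} [NeZero N] (h : m ∣ N) (φ : G →* DirichletCharacter ℂ m) :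
    ((changeLevel h).comp φ).ker = φ.ker := by
  ext g
  rw [MonoidHom.mem_ker, MonoidHom.mem_ker, MonoidHom.comp_apply,
    map_eq_one_iff _ (changeLevel_injective h)]

theorem conductor_dvd_homCond {N : ℕ} (φ : G →* DirichletCharacter ℂ N) (g : G) :
    (φ g).conductor ∣ homCond φ :=
  Finset.dvd_prod_of_mem (fun g => (φ g).conductor) (Finset.mem_univ g)

theorem homCond_pos {N : ℕ} [NeZero N] (φ : G →* DirichletCharacter ℂ N) : 0 < homCond φ :=
  Nat.pos_of_ne_zero (Finset.prod_ne_zero_iff.mpr fun _ _ => conductor_ne_zero _)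

/-- If the values come from a lower level so does the tally. -/
theorem homTally_lower {N m : ℕ} [NeZero N] (h : m ∣ N) (d : ℕ)
    (hcov : ∀ φ : G →* DirichletCharacter ℂ N, homCond φ = d → ∀ g, (φ g).conductor ∣ m) :
    homTally K N d = homTally K m d := by
  refine (Nat.card_congr (Equiv.ofBijective
    (fun φ : {φ : G →* DirichletCharacter ℂ m // K ≤ φ.ker ∧ homCond φ = d} =>
      (⟨(changeLevel h).comp φ.1, by rw [ker_comp_changeLevel]; exact φ.2.1,
        by rw [homCond_comp_changeLevel]; exact φ.2.2⟩ :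
        {φ : G →* DirichletCharacter ℂ N // K ≤ φ.ker ∧ homCond φ = d}))
    ⟨fun φ ψ e => Subtype.ext (MonoidHom.ext fun g => changeLevel_injective h
      (DFunLike.congr_fun (congrArg Subtype.val e) g)), fun φ => ?_⟩)).symm
  obtain ⟨φ, hK, hD⟩ := φ
  choose w hw using fun g => exists_changeLevel h (hcov φ hD g)
  let ψ : G →* DirichletCharacter ℂ m :=
    { toFun := w
      map_one' := changeLevel_injective h (by rw [hw, map_one, map_one])
      map_mul' := fun x y => changeLevel_injective h (by rw [hw, map_mul, map_mul, hw, hw]) }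
  have e : (changeLevel h).comp ψ = φ := MonoidHom.ext hw
  exact ⟨⟨ψ, by rwa [← e, ker_comp_changeLevel] at hK,
    by rwa [← e, homCond_comp_changeLevel] at hD⟩, Subtype.ext e⟩

theorem homTally_eq {N : ℕ} [NeZero N] {d : ℕ} (hd : d ∣ N) : homTally K N d = homTally K d d :=
  homTally_lower K hd d fun φ hD g => hD ▸ conductor_dvd_homCond φ g

section CRT

variable {m n : ℕ} [NeZero m] [NeZero n]

/-- Join homomorphisms to characters mod `m` and mod `n`. -/
def joinHom (v : (G →* DirichletCharacter ℂ m) × (G →* DirichletCharacter ℂ n)) :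
    G →* DirichletCharacter ℂ (m * n) :=
  (joinChar m n).comp (v.1.prod v.2)

omit [Fintype G] in
theorem joinHom_bijective (hc : m.Coprime n) :
    Function.Bijective (joinHom (G := G) (m := m) (n := n)) := by
  constructor
  · intro x y e
    have key := fun g => Prod.ext_iff.mp ((joinChar_bijective hc).1 (DFunLike.congr_fun e g))
    exact Prod.ext (MonoidHom.ext fun g => (key g).1) (MonoidHom.ext fun g => (key g).2)
  · intro φ
    let e := MulEquiv.ofBijective (joinChar m n) (joinChar_bijective hc)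
    refine ⟨((MonoidHom.fst _ _).comp (e.symm.toMonoidHom.comp φ),
      (MonoidHom.snd _ _).comp (e.symm.toMonoidHom.comp φ)), MonoidHom.ext fun g => ?_⟩
    exact e.apply_symm_apply (φ g)

omit [Fintype G] in
theorem le_ker_joinHom (hc : m.Coprime n) (u : G →* DirichletCharacter ℂ m)
    (v : G →* DirichletCharacter ℂ n) (K : Subgroup G) :
    K ≤ (joinHom (u, v)).ker ↔ K ≤ u.ker ∧ K ≤ v.ker := by
  rw [← le_inf_iff]
  refine iff_of_eq (congrArg _ ?_)
  ext g
  rw [MonoidHom.mem_ker, Subgroup.mem_inf, MonoidHom.mem_ker, MonoidHom.mem_ker, joinHom,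
    MonoidHom.comp_apply, map_eq_one_iff _ (joinChar_bijective hc).1, MonoidHom.prod_apply,
    Prod.mk_eq_one]

theorem homCond_joinHom (hc : m.Coprime n) (u : G →* DirichletCharacter ℂ m)
    (v : G →* DirichletCharacter ℂ n) :
    homCond (joinHom (u, v)) = homCond u * homCond v := by
  rw [homCond, homCond, homCond, ← Finset.prod_mul_distrib]
  exact Finset.prod_congr rfl fun g _ => conductor_joinChar hc (u g) (v g)

omit [NeZero m] [NeZero n] in
theorem homCond_coprime (hc : m.Coprime n) (u : G →* DirichletCharacter ℂ m) :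
    (homCond u).Coprime n :=
  Nat.Coprime.prod_left fun _ _ => hc.coprime_dvd_left (conductor_dvd_level _)

theorem homTally_mul (hc : m.Coprime n) :
    homTally K (m * n) (m * n) = homTally K m m * homTally K n n := by
  unfold homTally
  rw [← Nat.card_prod]
  refine (Nat.card_congr ?_).symm
  refine (Equiv.subtypeProdEquivProd).symm.trans
    ((Equiv.ofBijective _ (joinHom_bijective hc)).subtypeEquiv fun x => ?_)
  obtain ⟨u, v⟩ := x
  rw [Equiv.ofBijective_apply, le_ker_joinHom hc, homCond_joinHom hc]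
  refine ⟨fun h => ⟨⟨h.1.1, h.2.1⟩, by rw [h.1.2, h.2.2]⟩, fun h => ?_⟩
  have e1 : homCond u = m := Nat.dvd_antisymm
    ((homCond_coprime hc u).dvd_of_dvd_mul_right (h.2 ▸ dvd_mul_right _ _))
    ((homCond_coprime hc.symm v).symm.dvd_of_dvd_mul_right (h.2.symm ▸ dvd_mul_right m n))
  refine ⟨⟨h.1.1, e1⟩, h.1.2, Nat.eq_of_mul_eq_mul_left (Nat.pos_of_ne_zero (NeZero.ne m)) ?_⟩
  have h3 := h.2
  rw [e1] at h3
  exact h3

end CRT

theorem homTally_one : homTally K 1 1 = 1 := by
  haveI : Unique {φ : G →* DirichletCharacter ℂ 1 // K ≤ φ.ker ∧ homCond φ = 1} :=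
    { default := ⟨1, fun g _ => rfl, Finset.prod_eq_one fun g _ => conductor_one⟩
      uniq := fun v => Subtype.ext (MonoidHom.ext fun g => Subsingleton.elim _ _) }
  exact Nat.card_unique

theorem homCnt_isMultiplicative : (homCnt K).IsMultiplicative := by
  refine ArithmeticFunction.IsMultiplicative.iff_ne_zero.mpr ⟨?_, fun {m n} hm hn hc => ?_⟩
  · rw [homCnt_apply K one_ne_zero, homTally_one, Nat.cast_one]
  · haveI : NeZero m := ⟨hm⟩
    haveI : NeZero n := ⟨hn⟩
    rw [homCnt_apply K (mul_ne_zero hm hn), homCnt_apply K hm, homCnt_apply K hn, homTally_mul K hc,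
      Nat.cast_mul]

/-- **Summing the counts.** -/
theorem card_homCond_mem {N : ℕ} [NeZero N] (s : Finset ℕ) (hs : ∀ d ∈ s, d ∣ N) :
    (Nat.card {φ : G →* DirichletCharacter ℂ N // K ≤ φ.ker ∧ homCond φ ∈ s} : ℝ) =
      ∑ d ∈ s, homCnt K d := by
  haveI := finite_hom (G := G) N
  haveI : Fintype (G →* DirichletCharacter ℂ N) := Fintype.ofFinite _
  rw [Nat.card_eq_fintype_card, Fintype.card_subtype,
    Finset.card_eq_sum_card_fiberwise (f := homCond) (t := s)
      fun v hv => (Finset.mem_filter.mp hv).2.2, Nat.cast_sum]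
  refine Finset.sum_congr rfl fun d hd => ?_
  have hd0 : d ≠ 0 := ne_zero_of_dvd_ne_zero (NeZero.ne N) (hs d hd)
  rw [homCnt_apply K hd0, ← homTally_eq K (hs d hd), homTally, Nat.card_eq_fintype_card,
    Fintype.card_subtype, Finset.filter_filter]
  refine congrArg Nat.cast (congrArg Finset.card (Finset.filter_congr fun v _ => ?_))
  exact ⟨fun h => ⟨h.1.1, h.2⟩, fun h => ⟨⟨h.1, h.2 ▸ hd⟩, h.2⟩⟩

theorem pow_card_eq_one_apply {N : ℕ} (φ : G →* DirichletCharacter ℂ N) (g : G) :
    φ g ^ Fintype.card G = 1 := by rw [← map_pow, pow_card_eq_one, map_one]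

/-- **Tameness.** -/
theorem exists_tame_homCnt : ∃ E M, Tame (homCnt K) E M := by
  obtain ⟨E, hE⟩ := exists_exponent_bound (Fintype.card_ne_zero (α := G))
  refine ⟨Fintype.card G * E + 1, ((4 ^ Fintype.card G) ^ Fintype.card G : ℕ),
    fun p hp e => ?_⟩
  haveI : NeZero (p ^ e) := ⟨pow_ne_zero _ hp.ne_zero⟩
  haveI := finite_hom (G := G) (p ^ e)
  rw [homCnt_apply K (NeZero.ne _), Nat.abs_cast]
  refine ⟨fun he => Nat.cast_eq_zero.mpr (Nat.card_eq_zero.mpr (Or.inl ⟨fun φ => ?_⟩)),
    Nat.cast_le.mpr ?_⟩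
  · obtain ⟨φ, -, hD⟩ := φ
    choose j hj using fun g => (Nat.dvd_prime_pow hp).mp
      (conductor_dvd_level (φ g) : (φ g).conductor ∣ p ^ e)
    have hD' : homCond φ = p ^ ∑ g, j g := by
      rw [homCond, ← Finset.prod_pow_eq_pow_sum]
      exact Finset.prod_congr rfl fun g _ => (hj g).2
    rw [hD] at hD'
    have hsum : e = ∑ g, j g := Nat.pow_right_injective hp.two_le hD'
    have hle : ∑ g, j g ≤ Fintype.card G * E := by
      refine (Finset.sum_le_sum fun g _ =>
        (hE p hp e (φ g) (pow_card_eq_one_apply φ g) (j g) (hj g).2).le).trans_eq ?_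
      rw [Finset.sum_const, smul_eq_mul, Finset.card_univ]
    omega
  · refine (Finite.card_subtype_le _).trans ?_
    refine (Nat.card_le_card_of_injective
      (fun φ : G →* DirichletCharacter ℂ (p ^ e) => fun g =>
        (⟨φ g, pow_card_eq_one_apply φ g⟩ :
          {χ : DirichletCharacter ℂ (p ^ e) // χ ^ Fintype.card G = 1}))
      fun φ ψ h => MonoidHom.ext fun g => congrArg Subtype.val (congrFun h g)).trans ?_
    rw [Nat.card_fun, Nat.card_eq_fintype_card (α := G)]
    exact Nat.pow_le_pow_left (rootCount_le Fintype.card_ne_zero hp e) _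

/-! ### Tame primes -/

/-- The number of subgroups of index `l` above `K`. -/
def idxCount (l : ℕ) : ℕ := Nat.card {S : Subgroup G // S.index = l ∧ K ≤ S}

/-- The exponent `n - n / minFac n`. -/
def minExp (G : Type*) [Fintype G] : ℕ :=
  Fintype.card G - Fintype.card G / Nat.minFac (Fintype.card G)

omit [CommGroup G] in
theorem minExp_pos [Nontrivial G] : 0 < minExp G := by
  have h1 := Fintype.one_lt_card (α := G)
  exact Nat.sub_pos_of_lt (Nat.div_lt_self (by omega) (Nat.minFac_prime (by omega)).one_lt)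

theorem homCond_prime {p : ℕ} (hp : p.Prime) (φ : G →* DirichletCharacter ℂ p) :
    homCond φ = p ^ (Fintype.card G - Nat.card φ.ker) := by
  haveI : NeZero p := ⟨hp.ne_zero⟩
  have hc : ∀ g, (φ g).conductor = if g ∈ φ.ker then 1 else p := fun g => by
    split_ifs with hg
    · rw [MonoidHom.mem_ker.mp hg, conductor_one]
    · exact (hp.eq_one_or_self_of_dvd _ (conductor_dvd_level _)).resolve_left
        fun h => hg (MonoidHom.mem_ker.mpr (eq_one_iff_conductor_eq_one.mpr h))
  simp only [homCond, hc, Finset.prod_ite, Finset.prod_const, one_pow, one_mul]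
  rw [Nat.card_eq_fintype_card, Fintype.card_subtype, Finset.filter_not,
    Finset.card_sdiff_of_subset (Finset.subset_univ _), Finset.card_univ]

theorem exp_ker (S : Subgroup G) (hS : S ≠ ⊤) :
    minExp G ≤ Fintype.card G - Nat.card S ∧
      (Fintype.card G - Nat.card S = minExp G ↔ S.index = Nat.minFac (Fintype.card G)) := by
  set n := Fintype.card G
  have hn : n = Nat.card G := (Nat.card_eq_fintype_card).symm
  have hmul : Nat.card S * S.index = n := hn ▸ S.card_mul_index
  have hidx : 2 ≤ S.index := by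
    have h0 : S.index ≠ 0 := Subgroup.index_ne_zero_of_finite
    have h1 : S.index ≠ 1 := fun h => hS (Subgroup.index_eq_one.mp h)
    omega
  have hn0 : 0 < n := Fintype.card_pos
  have hlpos : 0 < n.minFac := Nat.minFac_pos n
  have hl : n.minFac ≤ S.index := Nat.minFac_le_of_dvd hidx ⟨Nat.card S, by rw [← hmul, mul_comm]⟩
  have hcard : Nat.card S = n / S.index := by
    rw [← hmul, Nat.mul_div_cancel _ (by omega)]
  have hle : Nat.card S ≤ n / n.minFac := hcard ▸ Nat.div_le_div_left hl hlpos
  have hlt : n / n.minFac ≤ n := Nat.div_le_self _ _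
  rw [show minExp G = n - n / n.minFac from rfl]
  refine ⟨by omega, ?_⟩
  constructor
  · intro h
    have h2 : Nat.card S = n / n.minFac := by omega
    have h3 : n / n.minFac * S.index = n / n.minFac * n.minFac := by
      rw [← h2, hmul, h2, Nat.div_mul_cancel n.minFac_dvd]
    exact Nat.eq_of_mul_eq_mul_left (Nat.div_pos (Nat.minFac_le hn0) hlpos) h3
  · intro h
    rw [hcard, h]

omit [Fintype G] in
/-- **Homomorphisms with a given kernel of prime index.** -/
theorem card_ker_eq [Finite G] {A : Type*} [CommGroup A] {l : ℕ} (hl : l.Prime) {S : Subgroup G}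
    (hS : S.index = l) :
    Nat.card {φ : G →* A // φ.ker = S} = Nat.card {x : A // x ^ l = 1 ∧ x ≠ 1} := by
  haveI : Fact l.Prime := ⟨hl⟩
  have hQ : Nat.card (G ⧸ S) = l := by rw [← Subgroup.index_eq_card, hS]
  obtain ⟨g₀, hg₀⟩ : ∃ g₀ : G, g₀ ∉ S := by
    by_contra h
    push Not at h
    rw [(Subgroup.eq_top_iff' S).mpr h, Subgroup.index_top] at hS
    exact hl.one_lt.ne hS
  have hq : (g₀ : G ⧸ S) ≠ 1 := fun h => hg₀ ((QuotientGroup.eq_one_iff g₀).mp h)
  have hgen : ∀ x : G ⧸ S, x ∈ Subgroup.zpowers (g₀ : G ⧸ S) := fun x =>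
    (zpowers_eq_top_of_prime_card hQ hq).symm ▸ Subgroup.mem_top x
  have hord : orderOf (g₀ : G ⧸ S) = l := by
    rw [orderOf_eq_card_of_forall_mem_zpowers hgen, hQ]
  refine Nat.card_congr (Equiv.ofBijective
    (fun φ : {φ : G →* A // φ.ker = S} => (⟨φ.1 g₀, ?_, fun h => hg₀ ?_⟩ :
      {x : A // x ^ l = 1 ∧ x ≠ 1})) ⟨fun φ ψ h => ?_, fun x => ?_⟩)
  · rw [← map_pow, ← MonoidHom.mem_ker, φ.2, ← QuotientGroup.eq_one_iff, QuotientGroup.mk_pow,
      ← hord, pow_orderOf_eq_one]
  · rw [← φ.2]; exact h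
  · refine Subtype.ext (MonoidHom.ext fun g => ?_)
    obtain ⟨j, hj⟩ := Subgroup.mem_zpowers_iff.mp (hgen (g : G ⧸ S))
    have hmem : (g₀ ^ j)⁻¹ * g ∈ S := QuotientGroup.eq.mp (by rw [QuotientGroup.mk_zpow, hj])
    have key : ∀ χ : {φ : G →* A // φ.ker = S}, χ.1 g = χ.1 g₀ ^ j := fun χ => by
      rw [← χ.2, MonoidHom.mem_ker, map_mul, map_inv, map_zpow, inv_mul_eq_one] at hmem
      exact hmem.symm
    rw [key φ, key ψ]
    exact congrArg (fun y : A => y ^ j) (congrArg Subtype.val h)
  · obtain ⟨x, hx, hx1⟩ := x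
    let ψ : G ⧸ S →* A := monoidHomOfForallMemZpowers hgen
      (g' := x) (hord ▸ orderOf_dvd_of_pow_eq_one hx)
    have hψ : ψ (g₀ : G ⧸ S) = x := monoidHomOfForallMemZpowers_apply_gen _ _
    have hbot : ψ.ker = ⊥ :=
      (Subgroup.eq_bot_or_eq_top_of_prime_card (G := G ⧸ S) (hp := ⟨hQ.symm ▸ hl⟩)
        ψ.ker).resolve_right
        fun h => hx1 (by
          rw [← hψ]
          exact MonoidHom.mem_ker.mp (h.symm ▸ Subgroup.mem_top _))
    refine ⟨⟨ψ.comp (QuotientGroup.mk' S), ?_⟩, Subtype.ext hψ⟩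
    rw [← MonoidHom.comap_ker, hbot, MonoidHom.comap_bot, QuotientGroup.ker_mk']

/-- **The counts at the large primes.** -/
theorem homCnt_tame [Nontrivial G] {p : ℕ} (hp : p.Prime) (hpn : max (Fintype.card G) 2 < p) :
    (∀ e, 1 ≤ e → e < minExp G → homCnt K (p ^ e) = 0) ∧
    homCnt K (p ^ minExp G) = if p % Nat.minFac (Fintype.card G) = 1 then
      (idxCount K (Nat.minFac (Fintype.card G)) : ℝ) *
        ((Nat.minFac (Fintype.card G) : ℝ) - 1) else 0 := by
  haveI : NeZero p := ⟨hp.ne_zero⟩
  haveI := finite_hom (G := G) p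
  set l := Nat.minFac (Fintype.card G) with hldef
  have hl : l.Prime := Nat.minFac_prime (Fintype.one_lt_card (α := G)).ne'
  have hlp : l < p := (Nat.minFac_le Fintype.card_pos).trans_lt (by omega)
  have hlow : ∀ e, 1 ≤ e → homTally K (p ^ e) (p ^ e) = homTally K p (p ^ e) := fun e he => by
    haveI : NeZero (p ^ e) := ⟨pow_ne_zero _ hp.ne_zero⟩
    obtain ⟨i, rfl⟩ : ∃ i, e = i + 1 := ⟨e - 1, by omega⟩
    exact homTally_lower K (dvd_pow_self p i.succ_ne_zero) _ fun φ _ g =>
      conductor_dvd_tame Fintype.card_ne_zero hp (by omega) (by omega) i (pow_card_eq_one_apply φ g)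
  have hiff : ∀ (φ : G →* DirichletCharacter ℂ p) {e : ℕ}, 1 ≤ e → homCond φ = p ^ e →
      φ.ker ≠ ⊤ ∧ e = Fintype.card G - Nat.card φ.ker := fun φ e he h => by
    rw [homCond_prime hp] at h
    have h' := Nat.pow_right_injective hp.two_le h
    refine ⟨fun htop => ?_, h'.symm⟩
    rw [htop, Subgroup.card_top, Nat.card_eq_fintype_card] at h'
    omega
  constructor
  · intro e he hea
    rw [homCnt_apply K (pow_ne_zero _ hp.ne_zero), hlow e he, Nat.cast_eq_zero, homTally,
      Nat.card_eq_zero]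
    refine Or.inl ⟨fun φ => ?_⟩
    obtain ⟨hne, h⟩ := hiff φ.1 he φ.2.2
    have := (exp_ker φ.1.ker hne).1
    omega
  · have ha : 1 ≤ minExp G := minExp_pos
    rw [homCnt_apply K (pow_ne_zero _ hp.ne_zero), hlow _ ha, homTally]
    have hset : ∀ φ : G →* DirichletCharacter ℂ p,
        (K ≤ φ.ker ∧ homCond φ = p ^ minExp G) ↔ (φ.ker.index = l ∧ K ≤ φ.ker) := fun φ => by
      constructor
      · rintro ⟨hK, h⟩
        obtain ⟨hne, h'⟩ := hiff φ ha h
        exact ⟨(exp_ker φ.ker hne).2.mp h'.symm, hK⟩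
      · rintro ⟨hi, hK⟩
        have hne : φ.ker ≠ ⊤ := fun h => by
          rw [h, Subgroup.index_top] at hi
          exact hl.one_lt.ne hi
        exact ⟨hK, by rw [homCond_prime hp, (exp_ker φ.ker hne).2.mpr hi]⟩
    have hfib : Nat.card {φ : G →* DirichletCharacter ℂ p // φ.ker.index = l ∧ K ≤ φ.ker} =
        idxCount K l * Nat.card {x : DirichletCharacter ℂ p // x ^ l = 1 ∧ x ≠ 1} := by
      haveI : Fintype {S : Subgroup G // S.index = l ∧ K ≤ S} := Fintype.ofFinite _
      rw [Nat.card_congr (Equiv.sigmaSubtypeFiberEquivSubtype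
        (fun φ : G →* DirichletCharacter ℂ p => φ.ker)
        (q := fun S : Subgroup G => S.index = l ∧ K ≤ S) fun _ => Iff.rfl).symm, Nat.card_sigma,
        idxCount, Nat.card_eq_fintype_card, ← smul_eq_mul, ← Finset.card_univ, ← Finset.sum_const]
      exact Finset.sum_congr rfl fun S _ => card_ker_eq hl S.2.1
    rw [Nat.card_congr (Equiv.subtypeEquivRight hset), hfib, Nat.cast_mul]
    have hroot : rootCount l p = (p - 1).gcd l := by
      have := rootCount_mul_gcd hl.ne_zero hp hlp (by omega) 0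
      rwa [zero_add, pow_one] at this
    have hx : Nat.card {x : DirichletCharacter ℂ p // x ^ l = 1 ∧ x ≠ 1} = (p - 1).gcd l - 1 := by
      rw [← hroot, rootCount, Nat.card_eq_fintype_card, Nat.card_eq_fintype_card,
        Fintype.card_subtype, Fintype.card_subtype,
        ← Finset.card_erase_of_mem (a := (1 : DirichletCharacter ℂ p))
          (s := Finset.univ.filter fun x => x ^ l = 1)
          (Finset.mem_filter.mpr ⟨Finset.mem_univ _, one_pow l⟩)]
      congr 1
      ext x
      simp [and_comm]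
    rw [hx]
    have hiffd : p % l = 1 ↔ l ∣ p - 1 := by
      rw [← Nat.modEq_iff_dvd' hp.one_lt.le, Nat.ModEq, Nat.mod_eq_of_lt hl.one_lt, eq_comm]
    split_ifs with h
    · rw [Nat.gcd_eq_right (hiffd.mp h), Nat.cast_sub hl.one_lt.le, Nat.cast_one]
    · rw [(hl.coprime_iff_not_dvd.mpr fun hd => h (hiffd.mpr hd)).symm.gcd_eq_one]
      simp

end FA.WrightAbelian
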