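import Fermat.Agent.Root.SummaryAbelianInverseGalois
import Fermat.Agent.WrightAbelian.GaloisDual
import Fermat.Agent.WrightAbelian.GeneralMean
import Fermat.Agent.WrightAbelian.Homs

/-!
# Fields with a given abelian group

They are the injective homomorphisms of the group to characters up to automorphisms. The counts by
kernel follow by recursion from the counts of homomorphisms trivial on a subgroup, and the count
with trivial kernel has positive leading constant since a fixed injective homomorphism times any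
one of coprime conductor is injective.
-/

set_option autoImplicit false
set_option linter.style.haveILetI false

noncomputable section

open NumberField DirichletCharacter Filter Topology Module ArithmeticFunction
open FA.AbelianQuartic (partialSum Tame condProd charsField charsField_injective
  conductor_mul_of_coprime)
open FA.ElementaryAbelianCount (abelianFields charGroups mem_charGroups image_charGroups)
open scoped Classical Nat

namespace FA.WrightAbelian

/-- The part prime to `N₀`. -/
def coprimePart (N₀ : ℕ) (f : ArithmeticFunction ℝ) : ArithmeticFunction ℝ :=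
  ⟨fun n => if n.Coprime N₀ then f n else 0, by simp⟩

theorem coprimePart_apply (N₀ : ℕ) (f : ArithmeticFunction ℝ) (n : ℕ) :
    coprimePart N₀ f n = if n.Coprime N₀ then f n else 0 := rfl

theorem coprimePart_isMultiplicative (N₀ : ℕ) {f : ArithmeticFunction ℝ} (hf : f.IsMultiplicative) :
    (coprimePart N₀ f).IsMultiplicative := by
  refine IsMultiplicative.iff_ne_zero.mpr ⟨?_, fun {m n} _ _ hc => ?_⟩
  · rw [coprimePart_apply, if_pos (Nat.coprime_one_left N₀), hf.map_one]
  · rw [coprimePart_apply, coprimePart_apply, coprimePart_apply, hf.map_mul_of_coprime hc]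
    by_cases h1 : m.Coprime N₀
    · by_cases h2 : n.Coprime N₀
      · rw [if_pos (Nat.coprime_mul_iff_left.mpr ⟨h1, h2⟩), if_pos h1, if_pos h2]
      · rw [if_neg fun h => h2 (Nat.coprime_mul_iff_left.mp h).2, if_neg h2, mul_zero]
    · rw [if_neg fun h => h1 (Nat.coprime_mul_iff_left.mp h).1, if_neg h1, zero_mul]

theorem tame_coprimePart (N₀ : ℕ) {f : ArithmeticFunction ℝ} {E : ℕ} {M : ℝ} (hf : Tame f E M) :
    Tame (coprimePart N₀ f) E M := by
  intro p hp e
  rw [coprimePart_apply]
  split_ifs with h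
  · exact hf p hp e
  · exact ⟨fun _ => rfl, by rw [abs_zero]; exact (abs_nonneg _).trans (hf p hp e).2⟩

theorem coprimePart_prime_pow {N₀ : ℕ} [NeZero N₀] (f : ArithmeticFunction ℝ) {p : ℕ} (hp : p.Prime)
    (h : N₀ < p) (e : ℕ) : coprimePart N₀ f (p ^ e) = f (p ^ e) := by
  refine if_pos (Nat.Coprime.pow_left e (hp.coprime_iff_not_dvd.mpr fun hd => ?_))
  have := Nat.le_of_dvd (NeZero.pos N₀) hd
  omega

variable (G : Type*) [CommGroup G] [Fintype G]

/-- **An injective homomorphism to characters.** -/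
theorem exists_injective_hom :
    ∃ (N₀ : ℕ) (_ : NeZero N₀) (θ : G →* DirichletCharacter ℂ N₀), Function.Injective θ := by
  obtain ⟨m, hm, -, f, hf⟩ := FA.AbelianInverseGalois.exists_units_quotient G one_ne_zero
  obtain ⟨d⟩ := CommGroup.monoidHom_mulEquiv_of_hasEnoughRootsOfUnity G ℂ
  let Φ : (G →* ℂˣ) →* DirichletCharacter ℂ m :=
    { toFun := fun ψ => MulChar.ofUnitHom (ψ.comp f)
      map_one' := MulChar.ext fun u => by
        rw [MulChar.ofUnitHom_coe, MonoidHom.one_comp, MonoidHom.one_apply, Units.val_one,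
          MulChar.one_apply_coe]
      map_mul' := fun ψ ψ' => MulChar.ext fun u => by
        rw [MulChar.mul_apply, MulChar.ofUnitHom_coe, MulChar.ofUnitHom_coe, MulChar.ofUnitHom_coe,
          MonoidHom.mul_comp, MonoidHom.mul_apply, Units.val_mul] }
  have hinj : Function.Injective Φ := fun ψ ψ' h => by
    refine (MonoidHom.cancel_right hf).mp (MonoidHom.ext fun u => Units.ext ?_)
    have h' := congrArg (fun χ : DirichletCharacter ℂ m => χ (u : ZMod m)) h
    simpa [Φ, MulChar.ofUnitHom_coe] using h'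
  exact ⟨m, ⟨by omega⟩, Φ.comp d.symm.toMonoidHom, hinj.comp d.symm.injective⟩

/-- The fields with group `G` and small discriminant. -/
def galFields (X : ℕ) : Set (IntermediateField ℚ ℂ) :=
  {F | IsGalois ℚ F ∧ Nonempty (Gal(F/ℚ) ≃* G) ∧ ∃ _ : NumberField F, (discr F).natAbs ≤ X}

theorem galFields_eq (X : ℕ) :
    galFields G X = {F | F ∈ abelianFields (Fintype.card G) X ∧ Nonempty (Gal(F/ℚ) ≃* G)} := by
  ext F
  constructor
  · rintro ⟨hg, ⟨e⟩, hn, hd⟩
    haveI : FiniteDimensional ℚ F := hn.to_finiteDimensional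
    haveI : IsMulCommutative Gal(F/ℚ) :=
      ⟨⟨fun a b => e.injective (by rw [map_mul, map_mul, mul_comm])⟩⟩
    refine ⟨⟨?_, ⟨⟩, hn, hd⟩, ⟨e⟩⟩
    rw [← IsGalois.card_aut_eq_finrank, Nat.card_congr e.toEquiv, Nat.card_eq_fintype_card]
  · rintro ⟨⟨-, hab, hn, hd⟩, he⟩
    exact ⟨inferInstance, he, hn, hd⟩

theorem finite_galFields (X : ℕ) : (galFields G X).Finite := by
  rw [galFields_eq]
  exact (FA.ElementaryAbelianCount.finite_abelianFields _ _).subset fun _ h => h.1

variable {G}

/-- The homomorphisms with kernel `K` and small product of conductors. -/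
def kerCount (K : Subgroup G) (X : ℕ) : ℕ :=
  Nat.card {θ : G →* DirichletCharacter ℂ X ! // θ.ker = K ∧ homCond θ ≤ X}

theorem card_le_ker (K : Subgroup G) (X : ℕ) :
    partialSum (homCnt K) (X : ℝ) =
      (Nat.card {θ : G →* DirichletCharacter ℂ X ! // K ≤ θ.ker ∧ homCond θ ≤ X} : ℝ) := by
  haveI : NeZero X ! := ⟨Nat.factorial_ne_zero X⟩
  rw [Nat.card_congr (Equiv.subtypeEquivRight fun θ : G →* DirichletCharacter ℂ X ! =>
      show K ≤ θ.ker ∧ homCond θ ≤ X ↔ K ≤ θ.ker ∧ homCond θ ∈ Finset.Ioc 0 X by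
        rw [Finset.mem_Ioc]
        exact ⟨fun h => ⟨h.1, homCond_pos θ, h.2⟩, fun h => ⟨h.1, h.2.2⟩⟩),
    card_homCond_mem K _ fun d hd => Nat.dvd_factorial (Finset.mem_Ioc.mp hd).1
      (Finset.mem_Ioc.mp hd).2, partialSum, Nat.floor_natCast]

/-- **The recursion on the kernel.** -/
theorem sum_kerCount (K : Subgroup G) (X : ℕ) :
    partialSum (homCnt K) (X : ℝ) =
      kerCount K X + ∑ S ∈ Finset.univ.filter (fun S => K < S), (kerCount S X : ℝ) := by
  haveI : NeZero X ! := ⟨Nat.factorial_ne_zero X⟩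
  haveI := finite_hom (G := G) X !
  haveI : Fintype (G →* DirichletCharacter ℂ X !) := Fintype.ofFinite _
  rw [card_le_ker, Nat.card_eq_fintype_card, Fintype.card_subtype,
    Finset.card_eq_sum_card_fiberwise (f := fun θ => θ.ker)
      (t := Finset.univ.filter fun S => K ≤ S) fun θ hθ => Finset.mem_filter.mpr
        ⟨Finset.mem_univ _, (Finset.mem_filter.mp hθ).2.1⟩, Nat.cast_sum,
    show Finset.univ.filter (fun S => K ≤ S) = insert K (Finset.univ.filter fun S => K < S) by
      ext S
      simp only [Finset.mem_insert, Finset.mem_filter, Finset.mem_univ, true_and,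
        le_iff_eq_or_lt, eq_comm (a := K)],
    Finset.sum_insert (by simp)]
  have key : ∀ S : Subgroup G, K ≤ S →
      ((Finset.univ.filter fun θ : G →* DirichletCharacter ℂ X ! =>
        K ≤ θ.ker ∧ homCond θ ≤ X).filter fun θ => θ.ker = S).card = kerCount S X := fun S hS => by
    rw [kerCount, Nat.card_eq_fintype_card, Fintype.card_subtype, Finset.filter_filter]
    exact congrArg Finset.card (Finset.filter_congr fun θ _ =>
      ⟨fun h => ⟨h.2, h.1.2⟩, fun h => ⟨⟨h.1 ▸ hS, h.2⟩, h.1⟩⟩)
  rw [key K le_rfl]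
  exact congrArg _ (Finset.sum_congr rfl fun S hS =>
    congrArg Nat.cast (key S (Finset.mem_filter.mp hS).2.le))

/-- **Fields and injective homomorphisms.** -/
theorem card_galFields (X : ℕ) :
    kerCount (⊥ : Subgroup G) X = Nat.card (MulAut G) * (galFields G X).ncard := by
  haveI : NeZero X ! := ⟨Nat.factorial_ne_zero X⟩
  haveI := finite_hom (G := G) X !
  haveI : Fintype (G →* DirichletCharacter ℂ X !) := Fintype.ofFinite _
  set N := X ! with hN
  have himg : galFields G X = charsField N '' ↑((charGroups N (Fintype.card G) X).filter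
      fun H : Subgroup (DirichletCharacter ℂ N) => Nonempty (H ≃* G)) := by
    rw [galFields_eq]
    ext F
    rw [← image_charGroups (N := N) fun d h0 h => Nat.dvd_factorial (Nat.pos_of_ne_zero h0) h]
    constructor
    · rintro ⟨⟨H, hH, rfl⟩, ⟨e⟩⟩
      obtain ⟨f⟩ := nonempty_galEquiv N H
      exact ⟨H, Finset.mem_coe.mpr (Finset.mem_filter.mpr ⟨hH, ⟨f.symm.trans e⟩⟩), rfl⟩
    · rintro ⟨H, hH, rfl⟩
      obtain ⟨hH1, ⟨e⟩⟩ := Finset.mem_filter.mp (Finset.mem_coe.mp hH)
      obtain ⟨f⟩ := nonempty_galEquiv N H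
      exact ⟨⟨H, hH1, rfl⟩, ⟨f.trans e⟩⟩
  rw [himg, Set.ncard_image_of_injective _ (charsField_injective N), Set.ncard_coe_finset,
    kerCount, Nat.card_eq_fintype_card, Fintype.card_subtype]
  have hcond : ∀ θ : G →* DirichletCharacter ℂ N, θ.ker = ⊥ → condProd N θ.range = homCond θ :=
    fun θ hθ => by
      refine (Finset.prod_congr (s₂ := Finset.univ.image θ) (Finset.ext fun χ => ?_)
        fun _ _ => rfl).trans (Finset.prod_image ((MonoidHom.ker_eq_bot_iff θ).mp hθ).injOn)
      simp [MonoidHom.mem_range]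
  rw [Finset.card_eq_sum_card_fiberwise (f := fun θ => θ.range)
    (t := (charGroups N (Fintype.card G) X).filter
      fun H : Subgroup (DirichletCharacter ℂ N) => Nonempty (H ≃* G)) fun θ hθ => ?_,
    mul_comm, ← smul_eq_mul, ← Finset.sum_const]
  · refine Finset.sum_congr rfl fun H hH => ?_
    obtain ⟨hH1, ⟨e⟩⟩ := Finset.mem_filter.mp hH
    obtain ⟨-, hD⟩ := (mem_charGroups _).mp hH1
    rw [Finset.filter_filter, ← Fintype.card_subtype, ← Nat.card_eq_fintype_card]
    refine Nat.card_congr
      { toFun := fun θ => ((MonoidHom.ofInjective ((MonoidHom.ker_eq_bot_iff θ.1).mp θ.2.1.1)).trans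
          (MulEquiv.subgroupCongr θ.2.2)).trans e
        invFun := fun σ => ⟨H.subtype.comp (σ.trans e.symm).toMonoidHom, ?_⟩
        left_inv := fun θ => Subtype.ext (MonoidHom.ext fun g => ?_)
        right_inv := fun σ => MulEquiv.ext fun g => ?_ }
    · have hinj : Function.Injective (H.subtype.comp (σ.trans e.symm).toMonoidHom) :=
        Subtype.val_injective.comp (σ.trans e.symm).injective
      have hr : (H.subtype.comp (σ.trans e.symm).toMonoidHom).range = H := by
        rw [MonoidHom.range_comp, MonoidHom.range_eq_top.mpr (σ.trans e.symm).surjective,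
          ← MonoidHom.range_eq_map, Subgroup.range_subtype]
      have hk := (MonoidHom.ker_eq_bot_iff _).mpr hinj
      exact ⟨⟨hk, by rw [← hcond _ hk, hr]; exact hD⟩, hr⟩
    · simp [MonoidHom.ofInjective_apply]
    · refine e.symm.injective ?_
      simp only [MulEquiv.trans_apply, MulEquiv.symm_apply_apply]
      exact Subtype.ext rfl
  · obtain ⟨hk, hd⟩ := (Finset.mem_filter.mp hθ).2
    have e := MonoidHom.ofInjective ((MonoidHom.ker_eq_bot_iff θ).mp hk)
    refine Finset.mem_filter.mpr ⟨(mem_charGroups _).mpr ⟨?_, (hcond θ hk).trans_le hd⟩, ⟨e.symm⟩⟩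
    rw [← Nat.card_eq_fintype_card]
    exact (Nat.card_congr e.toEquiv).symm

variable [Nontrivial G]

theorem idxCount_bot_pos : 1 ≤ idxCount (⊥ : Subgroup G) (Nat.minFac (Fintype.card G)) := by
  set l := Nat.minFac (Fintype.card G) with hl
  have hlp : l.Prime := Nat.minFac_prime (Fintype.one_lt_card (α := G)).ne'
  haveI : Fact l.Prime := ⟨hlp⟩
  obtain ⟨d⟩ := CommGroup.monoidHom_mulEquiv_of_hasEnoughRootsOfUnity G ℂ
  obtain ⟨g, hg⟩ := exists_prime_orderOf_dvd_card' (G := G) l
    (by rw [Nat.card_eq_fintype_card]; exact Nat.minFac_dvd _)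
  set ψ := d.symm g with hψ
  have hord : orderOf ψ = l := by rw [hψ, MulEquiv.orderOf_eq, hg]
  have hrange : Nat.card ψ.range = l := by
    have hne : ψ ≠ 1 := fun h => by
      rw [h, orderOf_one] at hord
      exact hlp.one_lt.ne hord
    have hsub : ψ.range ≤ rootsOfUnity l ℂ := by
      rintro _ ⟨x, rfl⟩
      rw [mem_rootsOfUnity, ← MonoidHom.pow_apply, ← hord, pow_orderOf_eq_one, MonoidHom.one_apply]
    haveI : NeZero l := ⟨hlp.ne_zero⟩
    have hdvd := Subgroup.card_dvd_of_le hsub
    rw [Complex.card_rootsOfUnity] at hdvd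
    rcases (Nat.dvd_prime hlp).mp hdvd with h | h
    · exact absurd (MonoidHom.range_eq_bot_iff.mp (Subgroup.card_eq_one.mp h)) hne
    · exact h
  exact Nat.one_le_iff_ne_zero.mpr (Nat.card_ne_zero.mpr
    ⟨⟨⟨ψ.ker, by rw [Subgroup.index_ker, hrange], bot_le⟩⟩, inferInstance⟩)

/-- The normalising function. -/
def normFun (G : Type*) [CommGroup G] [Fintype G] (x : ℝ) : ℝ :=
  x ^ ((minExp G : ℝ)⁻¹) *
    Real.log x ^ (idxCount (⊥ : Subgroup G) (Nat.minFac (Fintype.card G)) - 1)

theorem exists_mean_homCnt (K : Subgroup G) (N₀ : ℕ) [NeZero N₀] :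
    ∃ c : ℝ, Tendsto (fun x => partialSum (coprimePart N₀ (homCnt K)) x / normFun G x) atTop
      (𝓝 c) ∧ (K = ⊥ → 0 < c) := by
  set l := Nat.minFac (Fintype.card G) with hl
  haveI : Fact l.Prime := ⟨Nat.minFac_prime (Fintype.one_lt_card (α := G)).ne'⟩
  obtain ⟨E, M, hT⟩ := exists_tame_homCnt K
  obtain ⟨c, hc, hpos⟩ := exists_mean (l := l)
    (coprimePart_isMultiplicative N₀ (homCnt_isMultiplicative K))
    (fun n => by rw [coprimePart_apply]; split_ifs <;> [exact homCnt_nonneg K n; exact le_rfl])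
    (tame_coprimePart N₀ hT) (minExp_pos (G := G)) (P := max (max (Fintype.card G) 2) N₀)
    (β := idxCount K l) (le_max_of_le_left (le_max_of_le_left (Nat.minFac_le Fintype.card_pos)))
    (fun p hp hPp e h1 he => by
      rw [max_lt_iff] at hPp
      rw [coprimePart_prime_pow _ hp hPp.2]
      exact (homCnt_tame K hp hPp.1).1 e h1 he)
    (fun p hp hPp => by
      rw [max_lt_iff] at hPp
      rw [coprimePart_prime_pow _ hp hPp.2]
      exact (homCnt_tame K hp hPp.1).2)
    (idxCount_bot_pos (G := G))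
    (Nat.card_le_card_of_injective
      (fun S : {S : Subgroup G // S.index = l ∧ K ≤ S} =>
        (⟨S.1, S.2.1, bot_le⟩ : {S : Subgroup G // S.index = l ∧ ⊥ ≤ S}))
      fun S T h => Subtype.ext (congrArg (fun U => U.1) h))
  exact ⟨c, hc, fun h => hpos (by rw [h])⟩

theorem exists_limit (K : Subgroup G) :
    ∃ c : ℝ, Tendsto (fun X : ℕ => (kerCount K X : ℝ) / normFun G X) atTop (𝓝 c) := by
  induction K using WellFoundedGT.induction with
  | ind K ih =>
    choose c hc using ih
    obtain ⟨d, hd, -⟩ := exists_mean_homCnt K 1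
    have e1 : coprimePart 1 (homCnt K) = homCnt K :=
      ArithmeticFunction.ext fun n => if_pos (Nat.coprime_one_right n)
    rw [e1] at hd
    have hsum := tendsto_finsetSum (Finset.univ.filter fun S : Subgroup G => K < S).attach
      fun S _ => hc S.1 (Finset.mem_filter.mp S.2).2
    have h := (hd.comp tendsto_natCast_atTop_atTop).sub hsum
    refine ⟨_, h.congr fun X => ?_⟩
    simp only [Function.comp]
    rw [Finset.sum_attach _ fun S => (kerCount S X : ℝ) / normFun G X, ← Finset.sum_div,
      sum_kerCount, ← sub_div, add_sub_cancel_right]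

omit [Nontrivial G] in
/-- **The lower bound.** -/
theorem le_kerCount {N₀ : ℕ} [NeZero N₀] {θ₀ : G →* DirichletCharacter ℂ N₀}
    (hθ₀ : Function.Injective θ₀) {X : ℕ} (hX : N₀ ≤ X) :
    partialSum (coprimePart N₀ (homCnt (⊥ : Subgroup G))) ((X : ℝ) / (homCond θ₀ : ℝ)) ≤
      kerCount (⊥ : Subgroup G) X := by
  haveI : NeZero X ! := ⟨Nat.factorial_ne_zero X⟩
  haveI := finite_hom (G := G) X !
  have hd : N₀ ∣ X ! := Nat.dvd_factorial (NeZero.pos N₀) hX
  set D := homCond θ₀
  rw [partialSum, Nat.floor_div_natCast, Nat.floor_natCast]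
  simp only [coprimePart_apply, ← Finset.sum_filter]
  rw [← card_homCond_mem (⊥ : Subgroup G) (N := X !) _ fun d hd => by
    obtain ⟨h1, h2⟩ := Finset.mem_Ioc.mp (Finset.mem_filter.mp hd).1
    exact Nat.dvd_factorial h1 (h2.trans (Nat.div_le_self _ _))]
  refine Nat.cast_le.mpr (Nat.card_le_card_of_injective
    (fun ψ => ⟨(changeLevel hd).comp θ₀ * ψ.1, ?_⟩) fun ψ ψ' h =>
      Subtype.ext (mul_left_cancel (congrArg (fun u => u.1) h)))
  obtain ⟨ψ, -, hψ⟩ := ψ
  obtain ⟨hmem, hcop⟩ := Finset.mem_filter.mp hψ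
  have hc : ∀ g, (changeLevel hd (θ₀ g)).conductor.Coprime (ψ g).conductor := fun g => by
    rw [conductor_changeLevel]
    exact ((hcop.coprime_dvd_left (conductor_dvd_homCond ψ g)).coprime_dvd_right
      (conductor_dvd_level _)).symm
  have hval : ∀ g, (((changeLevel hd).comp θ₀ * ψ) g).conductor =
      (θ₀ g).conductor * (ψ g).conductor := fun g => by
    rw [MonoidHom.mul_apply, MonoidHom.comp_apply, conductor_mul_of_coprime _ _ (hc g),
      conductor_changeLevel]
  refine ⟨(MonoidHom.ker_eq_bot_iff _).mpr ((injective_iff_map_eq_one _).mpr fun g hg => ?_), ?_⟩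
  · have h := hval g
    rw [hg, conductor_one] at h
    refine hθ₀ ?_
    rw [map_one]
    exact eq_one_iff_conductor_eq_one.mpr (Nat.eq_one_of_mul_eq_one_right h.symm)
  · rw [homCond, Finset.prod_congr rfl fun g _ => hval g, Finset.prod_mul_distrib]
    have := (Finset.mem_Ioc.mp hmem).2
    rw [Nat.le_div_iff_mul_le (homCond_pos θ₀), mul_comm] at this
    exact this

/-- **Wright's theorem over `ℚ`.** -/
theorem exists_tendsto_galFields :
    ∃ c : ℝ, 0 < c ∧
      Tendsto (fun X : ℕ => ((galFields G X).ncard : ℝ) / normFun G X) atTop (𝓝 c) := by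
  obtain ⟨c, hc⟩ := exists_limit (⊥ : Subgroup G)
  obtain ⟨N₀, hN₀, θ₀, hθ₀⟩ := exists_injective_hom G
  obtain ⟨d, hd, hdpos⟩ := exists_mean_homCnt (⊥ : Subgroup G) N₀
  set D : ℝ := (homCond θ₀ : ℝ)
  have hD : 0 < D := Nat.cast_pos.mpr (homCond_pos θ₀)
  set α := ((minExp G : ℕ) : ℝ)⁻¹ with hα
  set m := idxCount (⊥ : Subgroup G) (Nat.minFac (Fintype.card G)) - 1 with hm
  have hdiv : Tendsto (fun X : ℕ => (X : ℝ) / D) atTop atTop :=
    tendsto_natCast_atTop_atTop.atTop_div_const hD
  have hlog : Tendsto (fun X : ℕ => Real.log ((X : ℝ) / D) / Real.log X) atTop (𝓝 1) := by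
    have h : Tendsto (fun X : ℕ => 1 - Real.log D / Real.log X) atTop (𝓝 1) := by
      simpa using (tendsto_const_nhds (x := (1 : ℝ))).sub
        ((tendsto_const_nhds (x := Real.log D)).div_atTop
          (Real.tendsto_log_atTop.comp tendsto_natCast_atTop_atTop))
    refine h.congr' ?_
    filter_upwards [eventually_ge_atTop 2] with X hX
    have h1 : (1 : ℝ) < X := Nat.one_lt_cast.mpr hX
    rw [Real.log_div (by linarith) hD.ne', sub_div, div_self (Real.log_pos h1).ne']
  have hlow := ((hd.comp hdiv).mul (hlog.pow m)).mul_const (D ^ α)⁻¹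
  have hge : d * 1 ^ m * (D ^ α)⁻¹ ≤ c := by
    refine le_of_tendsto_of_tendsto hlow hc ?_
    filter_upwards [eventually_ge_atTop N₀, eventually_ge_atTop 2,
      hdiv.eventually_gt_atTop 1] with X hX hX2 hXD
    have h1 : (1 : ℝ) < X := Nat.one_lt_cast.mpr hX2
    have hL : 0 < Real.log X := Real.log_pos h1
    have hL' : 0 < Real.log ((X : ℝ) / D) := Real.log_pos hXD
    have hXα : 0 < (X : ℝ) ^ α := Real.rpow_pos_of_pos (by linarith) α
    have hDα : 0 < D ^ α := Real.rpow_pos_of_pos hD α
    refine le_trans (le_of_eq ?_) (div_le_div_of_nonneg_right (le_kerCount hθ₀ hX)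
      (mul_nonneg hXα.le (pow_nonneg hL.le _)))
    simp only [Function.comp, normFun, ← hα, ← hm]
    rw [Real.div_rpow (by linarith) hD.le, div_pow]
    field_simp
    rfl
  have hA : (0 : ℝ) < (Nat.card (MulAut G) : ℝ) := by
    haveI : Finite (MulAut G) :=
      Finite.of_injective (fun σ => (σ : G → G)) DFunLike.coe_injective
    exact Nat.cast_pos.mpr Nat.card_pos
  refine ⟨c / Nat.card (MulAut G), div_pos (lt_of_lt_of_le ?_ hge) hA, ?_⟩
  · have := hdpos rfl
    positivity
  · refine (hc.div_const _).congr fun X => ?_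
    rw [card_galFields, Nat.cast_mul, mul_div_assoc, mul_div_cancel_left₀ _ hA.ne']

end FA.WrightAbelian
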