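import Fermat.Agent.WrightAbelian.Homs
import Mathlib.GroupTheory.FiniteAbelian.Duality
import Mathlib.RingTheory.RootsOfUnity.Complex
import Mathlib.Analysis.Complex.Polynomial.Basic

/-!
# Malle's exponent `b`

The elements of prime order `ℓ` of a finite abelian group are `ℓ - 1` times its subgroups of index
`ℓ`: both count the characters of order `ℓ`.
-/

set_option autoImplicit false
set_option linter.style.haveILetI false

noncomputable section

open scoped Classical

namespace FA.WrightAbelian

variable {G : Type*} [CommGroup G] [Finite G]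

omit [Finite G] in
theorem orderOf_eq_iff_index_ker {l : ℕ} (hl : l.Prime) (ψ : G →* ℂˣ) :
    orderOf ψ = l ↔ ψ.ker.index = l := by
  haveI : Fact l.Prime := ⟨hl⟩
  haveI : NeZero l := ⟨hl.ne_zero⟩
  rw [Subgroup.index_ker]
  constructor
  · intro hord
    have hsub : ψ.range ≤ rootsOfUnity l ℂ := by
      rintro _ ⟨x, rfl⟩
      rw [mem_rootsOfUnity, ← MonoidHom.pow_apply, ← hord, pow_orderOf_eq_one, MonoidHom.one_apply]
    have hdvd := Subgroup.card_dvd_of_le hsub
    rw [Complex.card_rootsOfUnity] at hdvd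
    rcases (Nat.dvd_prime hl).mp hdvd with h | h
    · rw [MonoidHom.range_eq_bot_iff.mp (Subgroup.card_eq_one.mp h), orderOf_one] at hord
      exact absurd hord hl.one_lt.ne
    · exact h
  · intro hr
    refine orderOf_eq_prime (MonoidHom.ext fun x => ?_) fun h => ?_
    · have h1 : (⟨ψ x, x, rfl⟩ : ψ.range) ^ l = 1 := hr ▸ pow_card_eq_one'
      exact congrArg Subtype.val h1
    · rw [MonoidHom.range_eq_bot_iff.mpr h, Subgroup.card_bot] at hr
      exact hl.one_lt.ne hr

/-- **The two counts.** -/
theorem card_orderOf_eq {l : ℕ} (hl : l.Prime) :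
    Nat.card {g : G // orderOf g = l} = (l - 1) * Nat.card {S : Subgroup G // S.index = l} := by
  haveI : NeZero l := ⟨hl.ne_zero⟩
  obtain ⟨d⟩ := CommGroup.monoidHom_mulEquiv_of_hasEnoughRootsOfUnity G ℂ
  haveI : Finite (G →* ℂˣ) := Finite.of_equiv G d.symm.toEquiv
  rw [← Nat.card_congr (d.toEquiv.subtypeEquiv (p := fun ψ : G →* ℂˣ => ψ.ker.index = l)
      (q := fun g : G => orderOf g = l) fun ψ => by
        rw [← orderOf_eq_iff_index_ker hl]
        exact (MulEquiv.orderOf_eq d ψ).symm ▸ Iff.rfl),
    Nat.card_congr (Equiv.sigmaSubtypeFiberEquivSubtype (fun ψ : G →* ℂˣ => ψ.ker)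
      (q := fun S : Subgroup G => S.index = l) fun _ => Iff.rfl).symm]
  haveI : Fintype {S : Subgroup G // S.index = l} := Fintype.ofFinite _
  rw [Nat.card_sigma, mul_comm, Nat.card_eq_fintype_card (α := {S : Subgroup G // S.index = l}),
    ← smul_eq_mul, ← Finset.card_univ, ← Finset.sum_const]
  refine Finset.sum_congr rfl fun S _ => (card_ker_eq (A := ℂˣ) hl S.2).trans ?_
  haveI : Fintype (rootsOfUnity l ℂ) := Fintype.ofFinite _
  have hc : Fintype.card (rootsOfUnity l ℂ) = l := by
    rw [← Nat.card_eq_fintype_card, Complex.card_rootsOfUnity]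
  rw [show Nat.card {x : ℂˣ // x ^ l = 1 ∧ x ≠ 1} =
      Nat.card {x : rootsOfUnity l ℂ // x ≠ 1} from Nat.card_congr
        { toFun := fun x => ⟨⟨x.1, x.2.1⟩, fun h => x.2.2 (congrArg Subtype.val h)⟩
          invFun := fun x => ⟨x.1.1, x.1.2, fun h => x.2 (Subtype.ext h)⟩
          left_inv := fun _ => rfl
          right_inv := fun _ => rfl },
    Nat.card_eq_fintype_card, Fintype.card_subtype, Finset.filter_ne', Finset.card_erase_of_mem
      (Finset.mem_univ _), Finset.card_univ, hc]

end FA.WrightAbelian
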