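import Fermat.Agent.AbelianQuartic.Convolution
import Mathlib.Analysis.SpecialFunctions.Log.Summable
import Mathlib.Data.Nat.Prime.Int
import Mathlib.NumberTheory.Divisors

/-!
# Arithmetic functions on the `a`-th powers, products of tame functions

Local series multiply, and a multiplicative function with absolutely convergent series and positive
local series has a positive series.
-/

set_option autoImplicit false
set_option linter.style.haveILetI false

noncomputable section

open ArithmeticFunction Filter Topology Finset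
open FA.AbelianQuartic (partialSum locSum Tame hasProd_series)
open scoped Classical

namespace FA.WrightAbelian

/-- Move a function to the `a`-th powers. -/
def liftPow (a : ℕ) (F : ArithmeticFunction ℝ) : ArithmeticFunction ℝ :=
  ⟨fun n => ∑ m ∈ n.divisors.filter (fun m => m ^ a = n), F m, by simp⟩

variable {a : ℕ}

theorem liftPow_pow (ha : a ≠ 0) (F : ArithmeticFunction ℝ) (m : ℕ) :
    liftPow a F (m ^ a) = F m := by
  rcases eq_or_ne m 0 with rfl | hm
  · simp [zero_pow ha]
  show ∑ k ∈ (m ^ a).divisors.filter (fun k => k ^ a = m ^ a), F k = _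
  rw [show (m ^ a).divisors.filter (fun k => k ^ a = m ^ a) = {m} by
    ext k
    simp only [mem_filter, Nat.mem_divisors, mem_singleton]
    exact ⟨fun h => Nat.pow_left_injective ha h.2,
      fun h => ⟨⟨h ▸ dvd_pow_self m ha, pow_ne_zero _ hm⟩, by rw [h]⟩⟩, sum_singleton]

theorem liftPow_eq_zero (F : ArithmeticFunction ℝ) {n : ℕ} (h : ∀ m, m ^ a ≠ n) :
    liftPow a F n = 0 := by
  show ∑ m ∈ n.divisors.filter (fun m => m ^ a = n), F m = 0
  exact sum_eq_zero fun m hm => absurd (mem_filter.mp hm).2 (h m)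

theorem liftPow_one (ha : a ≠ 0) : liftPow a 1 = 1 := by
  ext n
  by_cases h : ∃ m, m ^ a = n
  · obtain ⟨m, rfl⟩ := h
    rw [liftPow_pow ha, one_apply, one_apply]
    rcases eq_or_ne m 1 with rfl | hm
    · simp
    · rw [if_neg hm, if_neg fun e => hm ((Nat.pow_eq_one.mp e).resolve_right ha)]
  · push Not at h
    rw [liftPow_eq_zero _ h, one_apply, if_neg fun e : n = 1 => h 1 (by rw [one_pow, e])]

theorem liftPow_isMultiplicative (ha : a ≠ 0) {F : ArithmeticFunction ℝ}
    (hF : F.IsMultiplicative) : (liftPow a F).IsMultiplicative := by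
  refine IsMultiplicative.iff_ne_zero.mpr ⟨?_, fun {m n} _ _ hc => ?_⟩
  · rw [← one_pow a, liftPow_pow ha, hF.map_one]
  · have hpow : ∀ {x y r : ℕ}, x.Coprime y → x * y = r ^ a → ∃ d, d ^ a = x := fun hxy h => by
      obtain ⟨d, hd⟩ := exists_eq_pow_of_mul_eq_pow (by rw [Nat.isUnit_iff]; exact hxy) h
      exact ⟨d, hd.symm⟩
    by_cases hm : ∃ x, x ^ a = m
    · obtain ⟨x, rfl⟩ := hm
      by_cases hn : ∃ y, y ^ a = n
      · obtain ⟨y, rfl⟩ := hn
        rw [← mul_pow, liftPow_pow ha, liftPow_pow ha, liftPow_pow ha,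
          hF.map_mul_of_coprime ((Nat.coprime_pow_left_iff (Nat.pos_of_ne_zero ha) _ _).mp
            ((Nat.coprime_pow_right_iff (Nat.pos_of_ne_zero ha) _ _).mp hc))]
      · have hn' := hn
        push Not at hn'
        rw [liftPow_eq_zero _ hn', mul_zero, liftPow_eq_zero]
        exact fun r hr => hn (hpow hc.symm (by rw [hr, mul_comm]))
    · have hm' := hm
      push Not at hm'
      rw [liftPow_eq_zero _ hm', zero_mul, liftPow_eq_zero]
      exact fun r hr => hm (hpow hc hr.symm)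

theorem liftPow_mul (ha : a ≠ 0) (F G : ArithmeticFunction ℝ) :
    liftPow a (F * G) = liftPow a F * liftPow a G := by
  ext n
  rcases eq_or_ne n 0 with rfl | hn
  · simp
  by_cases h : ∃ m, m ^ a = n
  · obtain ⟨m, rfl⟩ := h
    have hm : m ≠ 0 := fun e => hn (by rw [e, zero_pow ha])
    rw [liftPow_pow ha, mul_apply, mul_apply]
    refine sum_of_injOn (fun x => (x.1 ^ a, x.2 ^ a)) (fun x _ y _ h => ?_) (fun x hx => ?_)
      (fun y hy hne => ?_) fun x _ => by rw [liftPow_pow ha, liftPow_pow ha]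
    · simp only [Prod.mk.injEq] at h
      exact Prod.ext (Nat.pow_left_injective ha h.1) (Nat.pow_left_injective ha h.2)
    · obtain ⟨hx, -⟩ := Nat.mem_divisorsAntidiagonal.mp hx
      exact Nat.mem_divisorsAntidiagonal.mpr ⟨by rw [← hx, mul_pow], hn⟩
    · by_cases h1 : ∃ u, u ^ a = y.1
      · by_cases h2 : ∃ v, v ^ a = y.2
        · obtain ⟨u, hu⟩ := h1
          obtain ⟨v, hv⟩ := h2
          obtain ⟨hy1, -⟩ := Nat.mem_divisorsAntidiagonal.mp hy
          rw [← hu, ← hv, ← mul_pow] at hy1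
          exact absurd ⟨(u, v), Finset.mem_coe.mpr (Nat.mem_divisorsAntidiagonal.mpr
            ⟨Nat.pow_left_injective ha hy1, hm⟩), Prod.ext hu hv⟩ hne
        · push Not at h2
          rw [liftPow_eq_zero _ h2, mul_zero]
      · push Not at h1
        rw [liftPow_eq_zero _ h1, zero_mul]
  · push Not at h
    rw [liftPow_eq_zero _ h, mul_apply]
    refine (sum_eq_zero fun x hx => ?_).symm
    by_cases h1 : ∃ u, u ^ a = x.1
    · obtain ⟨u, hu⟩ := h1
      rw [liftPow_eq_zero G (fun v hv => h (u * v) (by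
        rw [mul_pow, hu, hv, (Nat.mem_divisorsAntidiagonal.mp hx).1])), mul_zero]
    · push Not at h1
      rw [liftPow_eq_zero _ h1, zero_mul]

/-- The sums of a lifted function. -/
theorem partialSum_liftPow (ha : a ≠ 0) (F : ArithmeticFunction ℝ) {x : ℝ} (hx : 0 ≤ x) :
    partialSum (liftPow a F) x = partialSum F (x ^ ((a : ℝ)⁻¹)) := by
  have key : ∀ m : ℕ, m ≤ ⌊x ^ ((a : ℝ)⁻¹)⌋₊ ↔ m ^ a ≤ ⌊x⌋₊ := fun m => by
    rw [Nat.le_floor_iff (Real.rpow_nonneg hx _), Nat.le_floor_iff hx,
      Real.le_rpow_inv_iff_of_pos (Nat.cast_nonneg m) hx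
        (Nat.cast_pos.mpr (Nat.pos_of_ne_zero ha)), Real.rpow_natCast, Nat.cast_pow]
  rw [partialSum, partialSum]
  refine (sum_of_injOn (fun m => m ^ a) (fun _ _ _ _ h => Nat.pow_left_injective ha h)
    (fun m hm => ?_) (fun n hn hne => ?_) fun m _ => (liftPow_pow ha F m).symm).symm
  · rw [Finset.mem_coe, Finset.mem_Ioc] at hm ⊢
    exact ⟨pow_pos hm.1 _, (key m).mp hm.2⟩
  · refine liftPow_eq_zero F fun m hm => hne ?_
    rw [Finset.mem_Ioc] at hn
    subst hm
    exact ⟨m, Finset.mem_coe.mpr (Finset.mem_Ioc.mpr ⟨Nat.pos_of_ne_zero fun e => by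
      simp [e, zero_pow ha] at hn, (key m).mpr hn.2⟩), rfl⟩

theorem mul_prime_pow (f g : ArithmeticFunction ℝ) {p : ℕ} (hp : p.Prime) (e : ℕ) :
    (f * g) (p ^ e) = ∑ i ∈ range (e + 1), f (p ^ i) * g (p ^ (e - i)) := by
  rw [mul_apply, Nat.sum_divisorsAntidiagonal fun u v => f u * g v, Nat.sum_divisors_prime_pow hp]
  refine sum_congr rfl fun i hi => ?_
  rw [Nat.pow_div (by rw [mem_range] at hi; omega) hp.pos]

theorem tame_one : Tame (1 : ArithmeticFunction ℝ) 1 1 := fun p hp e => by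
  rw [one_apply]
  refine ⟨fun he => if_neg fun h => ?_, ?_⟩
  · rw [Nat.pow_eq_one] at h
    rcases h with h | h
    · exact hp.ne_one h
    · omega
  · split_ifs <;> simp

theorem tame_mul {f g : ArithmeticFunction ℝ} {E E' : ℕ} {M M' : ℝ} (hf : Tame f E M)
    (hg : Tame g E' M') : Tame (f * g) (E + E') (E * (M * M')) := by
  intro p hp e
  rw [mul_prime_pow f g hp]
  have hM : 0 ≤ M * M' :=
    mul_nonneg ((abs_nonneg _).trans (hf p hp 0).2) ((abs_nonneg _).trans (hg p hp 0).2)
  refine ⟨fun he => sum_eq_zero fun i hi => ?_, (abs_sum_le_sum_abs _ _).trans ?_⟩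
  · rcases le_or_gt E i with h | h
    · rw [(hf p hp i).1 h, zero_mul]
    · rw [(hg p hp (e - i)).1 (by omega), mul_zero]
  · calc ∑ i ∈ range (e + 1), |f (p ^ i) * g (p ^ (e - i))|
        ≤ ∑ i ∈ range (e + 1), if i < E then M * M' else 0 := sum_le_sum fun i _ => by
          split_ifs with h
          · rw [abs_mul]
            exact mul_le_mul (hf p hp i).2 (hg p hp _).2 (abs_nonneg _)
              ((abs_nonneg _).trans (hf p hp i).2)
          · rw [(hf p hp i).1 (not_lt.mp h), zero_mul, abs_zero]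
      _ ≤ E * (M * M') := by
          rw [sum_ite, sum_const_zero, add_zero, sum_const, nsmul_eq_mul]
          refine mul_le_mul_of_nonneg_right (Nat.cast_le.mpr ?_) hM
          refine (card_le_card (t := range E) fun i hi => ?_).trans_eq (card_range E)
          exact mem_range.mpr (mem_filter.mp hi).2

theorem exists_tame_pow {f : ArithmeticFunction ℝ} {E : ℕ} {M : ℝ} (hf : Tame f E M) (b : ℕ) :
    ∃ E' M', Tame (f ^ b) E' M' := by
  induction b with
  | zero => exact ⟨1, 1, by rw [pow_zero]; exact tame_one⟩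
  | succ b ih =>
    obtain ⟨E', M', h⟩ := ih
    exact ⟨_, _, by rw [pow_succ]; exact tame_mul h hf⟩

theorem liftPow_prime_pow (ha : a ≠ 0) (F : ArithmeticFunction ℝ) {p : ℕ} (hp : p.Prime) (e : ℕ) :
    liftPow a F (p ^ e) = if a ∣ e then F (p ^ (e / a)) else 0 := by
  split_ifs with hd
  · obtain ⟨j, rfl⟩ := hd
    rw [Nat.mul_div_cancel_left _ (Nat.pos_of_ne_zero ha), mul_comm, pow_mul, liftPow_pow ha]
  · refine liftPow_eq_zero F fun m hm => hd ?_
    obtain ⟨j, -, rfl⟩ := (Nat.dvd_prime_pow hp).mp (hm ▸ dvd_pow_self m ha)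
    rw [← pow_mul] at hm
    exact ⟨j, by rw [← Nat.pow_right_injective hp.two_le hm, mul_comm]⟩

theorem tame_liftPow (ha : a ≠ 0) {F : ArithmeticFunction ℝ} {E : ℕ} {M : ℝ} (hF : Tame F E M) :
    Tame (liftPow a F) (a * E) M := by
  intro p hp e
  rw [liftPow_prime_pow ha F hp]
  split_ifs with hd
  · refine ⟨fun he => (hF p hp _).1 ?_, (hF p hp _).2⟩
    rw [Nat.le_div_iff_mul_le (Nat.pos_of_ne_zero ha), mul_comm]
    exact he
  · exact ⟨fun _ => rfl, by rw [abs_zero]; exact (abs_nonneg _).trans (hF p hp 0).2⟩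

theorem summable_locSum {f : ArithmeticFunction ℝ} {E : ℕ} {M : ℝ} (hf : Tame f E M) {p : ℕ}
    (hp : p.Prime) (x : ℝ) : Summable fun e : ℕ => f (p ^ e) * x ^ e :=
  summable_of_ne_finset_zero (s := range E) fun e he => by
    rw [(hf p hp e).1 (by simpa using he), zero_mul]

theorem locSum_mul {f g : ArithmeticFunction ℝ} {E E' : ℕ} {M M' : ℝ} (hf : Tame f E M)
    (hg : Tame g E' M') {p : ℕ} (hp : p.Prime) (x : ℝ) :
    locSum (f * g) p x = locSum f p x * locSum g p x := by
  rw [locSum, locSum, locSum, tsum_mul_tsum_eq_tsum_sum_range_of_summable_norm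
    (summable_norm_iff.mpr (summable_locSum hf hp x))
    (summable_norm_iff.mpr (summable_locSum hg hp x))]
  refine tsum_congr fun e => ?_
  rw [mul_prime_pow f g hp, sum_mul]
  refine sum_congr rfl fun i hi => ?_
  rw [mul_mul_mul_comm, ← pow_add, Nat.add_sub_cancel' (by rw [mem_range] at hi; omega)]

theorem locSum_pow {f : ArithmeticFunction ℝ} {E : ℕ} {M : ℝ} (hf : Tame f E M) {p : ℕ}
    (hp : p.Prime) (x : ℝ) (b : ℕ) : locSum (f ^ b) p x = locSum f p x ^ b := by
  induction b with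
  | zero =>
    rw [pow_zero, pow_zero, locSum, tsum_eq_single 0 fun e he => by
      rw [one_apply, if_neg fun h => (Nat.pow_eq_one.mp h).elim hp.ne_one he, zero_mul]]
    simp
  | succ b ih =>
    obtain ⟨E', M', h⟩ := exists_tame_pow hf b
    rw [pow_succ, locSum_mul h hf hp, ih, pow_succ]

theorem locSum_liftPow (ha : a ≠ 0) (F : ArithmeticFunction ℝ) {p : ℕ} (hp : p.Prime) (x : ℝ) :
    locSum (liftPow a F) p x = locSum F p (x ^ a) := by
  rw [locSum, locSum]
  refine ((mul_right_injective₀ ha).tsum_eq (f := fun e => liftPow a F (p ^ e) * x ^ e)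
    fun e he => ?_).symm.trans (tsum_congr fun e => ?_)
  · simp only [Function.mem_support, liftPow_prime_pow ha F hp] at he
    split_ifs at he with hd
    · exact ⟨e / a, Nat.mul_div_cancel' hd⟩
    · simp at he
  · rw [liftPow_prime_pow ha F hp, if_pos (dvd_mul_right a e),
      Nat.mul_div_cancel_left _ (Nat.pos_of_ne_zero ha), pow_mul]

/-- **A positive series.** -/
theorem series_pos {h : ArithmeticFunction ℝ} (hm : h.IsMultiplicative) {α : ℝ} (hα : 0 < α)
    (hs : Summable fun n : ℕ => |h n| / (n : ℝ) ^ α)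
    (hpos : ∀ p : Nat.Primes, 0 < locSum h p ((p : ℝ) ^ α)⁻¹) :
    0 < ∑' n : ℕ, h n / (n : ℝ) ^ α := by
  set w : ℕ → ℝ := fun n => |h n| / (n : ℝ) ^ α
  have hprod := hasProd_series hm hα hs
  refine lt_of_le_of_ne (ge_of_tendsto' hprod fun s => prod_nonneg fun p _ => (hpos p).le)
    (Ne.symm ?_)
  rw [← hprod.tprod_eq, show (fun p : Nat.Primes => locSum h p ((p : ℝ) ^ α)⁻¹) =
      fun p : Nat.Primes => 1 + (locSum h p ((p : ℝ) ^ α)⁻¹ - 1) by funext p; ring]
  refine tprod_one_add_ne_zero_of_summable (fun p => ?_) ?_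
  · rw [add_sub_cancel]; exact (hpos p).ne'
  · have hw : ∀ (p : Nat.Primes) (e : ℕ),
        w ((p : ℕ) ^ e) = |h ((p : ℕ) ^ e) * (((p : ℕ) : ℝ) ^ α)⁻¹ ^ e| := fun p e => by
      have h0 : (0 : ℝ) ≤ (((p : ℕ) : ℝ) ^ α) ^ e := by positivity
      simp only [w, Nat.cast_pow]
      rw [← Real.rpow_natCast_mul (Nat.cast_nonneg _), mul_comm (e : ℝ),
        Real.rpow_mul_natCast (Nat.cast_nonneg _), inv_pow, abs_mul, abs_inv, abs_of_nonneg h0,
        div_eq_mul_inv]
    have hinj : Function.Injective fun x : Nat.Primes × ℕ => (x.1 : ℕ) ^ (x.2 + 1) := by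
      intro x y e
      obtain ⟨h1, h2⟩ := Nat.Prime.pow_inj x.1.2 y.1.2 e
      exact Prod.ext (Subtype.ext h1) (by omega)
    have hbig : Summable fun x : Nat.Primes × ℕ => w ((x.1 : ℕ) ^ (x.2 + 1)) :=
      hs.comp_injective hinj
    refine Summable.of_nonneg_of_le (fun _ => norm_nonneg _) (fun p => ?_) hbig.prod
    have hsum : Summable fun e : ℕ => |h ((p : ℕ) ^ e) * (((p : ℕ) : ℝ) ^ α)⁻¹ ^ e| :=
      (hs.comp_injective (Nat.pow_right_injective p.2.two_le)).congr fun e => hw p e
    rw [locSum, (summable_abs_iff.mp hsum).tsum_eq_zero_add, pow_zero, hm.map_one, pow_zero,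
      one_mul, add_sub_cancel_left]
    simp only [hw]
    exact norm_tsum_le_tsum_norm ((summable_nat_add_iff 1).mpr hsum)

end FA.WrightAbelian
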