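import Fermat.Agent.AbelianQuartic.Convolution
import Mathlib.Analysis.Asymptotics.SpecificAsymptotics
import Mathlib.Analysis.SpecialFunctions.Complex.LogBounds

/-!
# The mean value of a product of nonnegative functions

If the sums of `a` are `~ R x` and those of `b` are `~ c x (log x) ^ m`, both functions being
nonnegative, those of `a * b` are `~ R c / (m + 1) x (log x) ^ (m + 1)`.
-/

set_option autoImplicit false
set_option linter.style.haveILetI false

noncomputable section

open ArithmeticFunction Filter Topology Finset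
open FA.AbelianQuartic (partialSum partialSum_mul)

namespace FA.WrightAbelian

/-- The sum of `b n / n`. -/
def logSum (b : ArithmeticFunction ℝ) (N : ℕ) : ℝ := ∑ n ∈ Finset.Ioc 0 N, b n / (n : ℝ)

theorem partialSum_nonneg {f : ArithmeticFunction ℝ} (hf : ∀ n, 0 ≤ f n) (x : ℝ) :
    0 ≤ partialSum f x := sum_nonneg fun n _ => hf n

theorem partialSum_mono {f : ArithmeticFunction ℝ} (hf : ∀ n, 0 ≤ f n) {x y : ℝ} (h : x ≤ y) :
    partialSum f x ≤ partialSum f y :=
  sum_le_sum_of_subset_of_nonneg (Ioc_subset_Ioc_right (Nat.floor_le_floor h)) fun n _ _ => hf n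

theorem partialSum_natCast (f : ArithmeticFunction ℝ) (N : ℕ) :
    partialSum f (N : ℝ) = ∑ n ∈ Finset.Ioc 0 N, f n := by rw [partialSum, Nat.floor_natCast]

/-- A limit gives a bound. -/
theorem exists_bound {f : ArithmeticFunction ℝ} (hf : ∀ n, 0 ≤ f n) (m : ℕ) {c : ℝ}
    (h : Tendsto (fun x => partialSum f x / (x * Real.log x ^ m)) atTop (𝓝 c)) :
    ∃ C : ℝ, ∀ x : ℝ, 1 ≤ x → |partialSum f x| ≤ C * x * (1 + Real.log x) ^ m := by
  obtain ⟨x₀, h₀⟩ := eventually_atTop.mp
    ((h.eventually_le_const (lt_add_one c)).and (eventually_gt_atTop (1 : ℝ)))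
  refine ⟨max (c + 1) (partialSum f x₀), fun x hx => ?_⟩
  rw [abs_of_nonneg (partialSum_nonneg hf x)]
  have hlog : 0 ≤ Real.log x := Real.log_nonneg hx
  rcases le_total x₀ x with hxx | hxx
  · obtain ⟨h1, h2⟩ := h₀ x hxx
    have hC : 0 ≤ max (c + 1) (partialSum f x₀) :=
      (partialSum_nonneg hf x₀).trans (le_max_right _ _)
    rw [div_le_iff₀ (mul_pos (by linarith) (pow_pos (Real.log_pos h2) m))] at h1
    refine h1.trans ?_
    rw [mul_assoc]
    exact mul_le_mul (le_max_left _ _) (mul_le_mul_of_nonneg_left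
      (pow_le_pow_left₀ hlog (by linarith) m) (by linarith)) (by positivity) hC
  · refine ((partialSum_mono hf hxx).trans (le_max_right (c + 1) _)).trans ?_
    rw [mul_assoc]
    exact le_mul_of_one_le_right ((partialSum_nonneg hf x₀).trans (le_max_right _ _))
      (one_le_mul_of_one_le_of_one_le hx (one_le_pow₀ (by linarith)))

theorem logSum_eq (b : ArithmeticFunction ℝ) (N : ℕ) :
    logSum b N = ∑ n ∈ range N, partialSum b ((n + 1 : ℕ) : ℝ) / (((n : ℝ) + 1) * ((n : ℝ) + 2)) +
      partialSum b (N : ℝ) / ((N : ℝ) + 1) := by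
  induction N with
  | zero => simp [logSum, partialSum]
  | succ N ih =>
    rw [logSum, Finset.sum_Ioc_succ_top N.zero_le, ← logSum, ih, sum_range_succ,
      partialSum_natCast b (N + 1), Finset.sum_Ioc_succ_top N.zero_le, ← partialSum_natCast b N]
    push_cast
    field_simp
    ring

theorem tendsto_step (m : ℕ) :
    Tendsto (fun n : ℕ => ((n : ℝ) + 2) *
      (Real.log ((n : ℝ) + 2) ^ (m + 1) - Real.log ((n : ℝ) + 1) ^ (m + 1)) /
        Real.log ((n : ℝ) + 1) ^ m) atTop (𝓝 ((m : ℝ) + 1)) := by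
  have ht : Tendsto (fun n : ℕ => (n : ℝ) + 1) atTop atTop :=
    tendsto_atTop_add_const_right _ 1 tendsto_natCast_atTop_atTop
  have h1 : Tendsto (fun n : ℕ => ((n : ℝ) + 2) *
      (Real.log ((n : ℝ) + 2) - Real.log ((n : ℝ) + 1))) atTop (𝓝 1) := by
    have hq : Tendsto (fun n : ℕ => 1 + 1 / ((n : ℝ) + 1)) atTop (𝓝 1) := by
      simpa using (tendsto_const_nhds (x := (1 : ℝ))).add
        ((tendsto_const_nhds (x := (1 : ℝ))).div_atTop ht)
    have h := hq.mul ((Real.tendsto_mul_log_one_add_div_atTop 1).comp ht)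
    rw [one_mul] at h
    refine h.congr fun n => ?_
    simp only [Function.comp]
    have hn : (0 : ℝ) < (n : ℝ) + 1 := by positivity
    rw [← Real.log_div (by positivity) hn.ne',
      show ((n : ℝ) + 2) / ((n : ℝ) + 1) = 1 + 1 / ((n : ℝ) + 1) by field_simp; ring]
    field_simp
    ring_nf
  have hr : Tendsto (fun n : ℕ => Real.log ((n : ℝ) + 2) / Real.log ((n : ℝ) + 1)) atTop (𝓝 1) := by
    have hd : Tendsto (fun n : ℕ => Real.log ((n : ℝ) + 2) - Real.log ((n : ℝ) + 1)) atTop
        (𝓝 0) := by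
      have h := h1.div_atTop (tendsto_atTop_add_const_right _ (2 : ℝ) tendsto_natCast_atTop_atTop)
      refine h.congr fun n => ?_
      have hn : (n : ℝ) + 2 ≠ 0 := by positivity
      field_simp
    have h := (tendsto_const_nhds (x := (1 : ℝ))).add
      (hd.div_atTop (Real.tendsto_log_atTop.comp ht))
    rw [add_zero] at h
    refine h.congr' ?_
    filter_upwards [eventually_ge_atTop 1] with n hn
    have : 0 < Real.log ((n : ℝ) + 1) := Real.log_pos (by
      have : (1 : ℝ) ≤ n := by exact_mod_cast hn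
      linarith)
    simp only [Function.comp]
    field_simp
    ring
  have hsum : Tendsto (fun n : ℕ => ∑ i ∈ range (m + 1),
      (Real.log ((n : ℝ) + 2) / Real.log ((n : ℝ) + 1)) ^ i) atTop (𝓝 ((m : ℝ) + 1)) := by
    have h := tendsto_finsetSum (range (m + 1)) fun i _ => hr.pow i
    simpa using h
  have h := h1.mul hsum
  rw [one_mul] at h
  refine h.congr' ?_
  filter_upwards [eventually_ge_atTop 1] with n hn
  have hpos : 0 < Real.log ((n : ℝ) + 1) := Real.log_pos (by
    have : (1 : ℝ) ≤ n := by exact_mod_cast hn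
    linarith)
  have hkey : (∑ i ∈ range (m + 1), (Real.log ((n : ℝ) + 2) / Real.log ((n : ℝ) + 1)) ^ i) *
      Real.log ((n : ℝ) + 1) ^ m = ∑ i ∈ range (m + 1),
        Real.log ((n : ℝ) + 2) ^ i * Real.log ((n : ℝ) + 1) ^ (m + 1 - 1 - i) := by
    rw [sum_mul]
    refine sum_congr rfl fun i hi => ?_
    rw [mem_range] at hi
    rw [div_pow, div_mul_eq_mul_div, div_eq_iff (pow_pos hpos i).ne', mul_assoc, ← pow_add]
    congr 2
    omega
  rw [← geom_sum₂_mul (Real.log ((n : ℝ) + 2)) (Real.log ((n : ℝ) + 1)) (m + 1), ← hkey, eq_div_iff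
    (pow_pos hpos m).ne']
  ring

/-- **Partial summation.** -/
theorem tendsto_logSum {b : ArithmeticFunction ℝ} (m : ℕ) {c : ℝ}
    (h : Tendsto (fun x => partialSum b x / (x * Real.log x ^ m)) atTop (𝓝 c)) :
    Tendsto (fun x : ℝ => logSum b ⌊x⌋₊ / Real.log x ^ (m + 1)) atTop (𝓝 (c / ((m : ℝ) + 1))) := by
  set κ := c / ((m : ℝ) + 1) with hκ
  set g : ℕ → ℝ := fun n => partialSum b ((n + 1 : ℕ) : ℝ) / (((n : ℝ) + 1) * ((n : ℝ) + 2))
  set D : ℕ → ℝ := fun n =>
    Real.log ((n : ℝ) + 2) ^ (m + 1) - Real.log ((n : ℝ) + 1) ^ (m + 1) with hD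
  have ht : Tendsto (fun n : ℕ => (n : ℝ) + 1) atTop atTop :=
    tendsto_atTop_add_const_right _ 1 tendsto_natCast_atTop_atTop
  have hD0 : 0 ≤ D := fun n => sub_nonneg.mpr (pow_le_pow_left₀
    (Real.log_nonneg (by linarith [n.cast_nonneg (α := ℝ)]))
    (Real.log_le_log (by positivity) (by linarith)) _)
  have hsumD : ∀ N : ℕ, ∑ n ∈ range N, D n = Real.log ((N : ℝ) + 1) ^ (m + 1) := fun N => by
    have := sum_range_sub (fun n : ℕ => Real.log ((n : ℝ) + 1) ^ (m + 1)) N
    simp only [Nat.cast_zero, zero_add, Real.log_one, zero_pow m.succ_ne_zero, sub_zero] at this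
    rw [← this]
    refine sum_congr rfl fun n _ => ?_
    simp only [hD, Nat.cast_succ]
    ring_nf
  have hgD : (fun n => g n - κ * D n) =o[atTop] D := by
    have h1 : Tendsto (fun n : ℕ => g n / D n) atTop (𝓝 κ) := by
      have hq := (h.comp ht).div (tendsto_step m) (by positivity)
      rw [← hκ] at hq
      refine hq.congr' ?_
      filter_upwards [eventually_ge_atTop 1] with n hn
      have hpos : 0 < Real.log ((n : ℝ) + 1) := Real.log_pos (by
        have : (1 : ℝ) ≤ n := by exact_mod_cast hn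
        linarith)
      have h2 : (n : ℝ) + 2 ≠ 0 := by positivity
      simp only [Function.comp, g, hD, Nat.cast_succ, Pi.div_apply]
      field_simp
    have hne : ∀ᶠ n : ℕ in atTop, D n ≠ 0 := Eventually.of_forall fun n => (sub_pos.mpr
      (pow_lt_pow_left₀ (Real.log_lt_log (by positivity) (by linarith))
        (Real.log_nonneg (by linarith [n.cast_nonneg (α := ℝ)])) m.succ_ne_zero)).ne'
    refine (Asymptotics.isLittleO_iff_tendsto' (hne.mono fun n hn h0 => absurd h0 hn)).mpr ?_
    have h2 := h1.sub_const κ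
    rw [sub_self] at h2
    refine h2.congr' (hne.mono fun n hn => ?_)
    show g n / D n - κ = (g n - κ * D n) / D n
    rw [sub_div, mul_div_assoc, div_self hn, mul_one]
  have hDtop : Tendsto (fun N => ∑ n ∈ range N, D n) atTop atTop := by
    simp only [hsumD]
    exact (tendsto_pow_atTop m.succ_ne_zero).comp (Real.tendsto_log_atTop.comp ht)
  have hsums := (hgD.sum_range hD0 hDtop).tendsto_div_nhds_zero.add_const κ
  rw [zero_add] at hsums
  have hmain : Tendsto (fun N : ℕ => logSum b N / Real.log ((N : ℝ) + 1) ^ (m + 1)) atTop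
      (𝓝 κ) := by
    have htail : Tendsto (fun N : ℕ => partialSum b (N : ℝ) / ((N : ℝ) + 1) /
        Real.log ((N : ℝ) + 1) ^ (m + 1)) atTop (𝓝 0) := by
      have hN := h.comp (tendsto_natCast_atTop_atTop (R := ℝ))
      have hlo : Tendsto (fun N : ℕ => (N : ℝ) * Real.log N ^ m /
          (((N : ℝ) + 1) * Real.log ((N : ℝ) + 1) ^ (m + 1))) atTop (𝓝 0) := by
        refine squeeze_zero' (g := fun N : ℕ => (Real.log ((N : ℝ) + 1))⁻¹) ?_ ?_
          (Real.tendsto_log_atTop.comp ht).inv_tendsto_atTop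
        · filter_upwards with N
          refine div_nonneg (mul_nonneg N.cast_nonneg (pow_nonneg ?_ _))
            (mul_nonneg (by positivity) (pow_nonneg ?_ _))
          · exact Real.log_natCast_nonneg N
          · exact Real.log_nonneg (by linarith [N.cast_nonneg (α := ℝ)])
        · filter_upwards [eventually_ge_atTop 1] with N hN1
          have hN' : (1 : ℝ) ≤ N := by exact_mod_cast hN1
          have hpos : 0 < Real.log ((N : ℝ) + 1) := Real.log_pos (by linarith)
          rw [div_le_iff₀ (mul_pos (by linarith) (pow_pos hpos _)), pow_succ,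
            show (Real.log ((N : ℝ) + 1))⁻¹ *
              (((N : ℝ) + 1) * (Real.log ((N : ℝ) + 1) ^ m * Real.log ((N : ℝ) + 1))) =
              ((N : ℝ) + 1) * Real.log ((N : ℝ) + 1) ^ m by field_simp]
          exact mul_le_mul (by linarith) (pow_le_pow_left₀ (Real.log_nonneg hN')
            (Real.log_le_log (by linarith) (by linarith)) m)
            (pow_nonneg (Real.log_nonneg hN') _) (by linarith)
      have := hN.mul hlo
      rw [mul_zero] at this
      refine this.congr' ?_
      filter_upwards [eventually_ge_atTop 2] with N hN2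
      have hN' : (2 : ℝ) ≤ N := by exact_mod_cast hN2
      have : Real.log (N : ℝ) ≠ 0 := (Real.log_pos (by linarith)).ne'
      have : Real.log ((N : ℝ) + 1) ≠ 0 := (Real.log_pos (by linarith)).ne'
      simp only [Function.comp]
      field_simp
    have := hsums.add htail
    rw [add_zero] at this
    refine this.congr' ?_
    filter_upwards [eventually_ge_atTop 1] with N hN
    have hpos : 0 < Real.log ((N : ℝ) + 1) := Real.log_pos (by
      have : (1 : ℝ) ≤ N := by exact_mod_cast hN
      linarith)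
    rw [logSum_eq, sum_sub_distrib, ← mul_sum, hsumD, sub_div, mul_div_assoc,
      div_self (pow_pos hpos _).ne', mul_one, sub_add_cancel, add_div]
  have hratio : Tendsto (fun x : ℝ => Real.log ((⌊x⌋₊ : ℝ) + 1) / Real.log x) atTop (𝓝 1) := by
    have hup : Tendsto (fun x : ℝ => 1 + Real.log 2 / Real.log x) atTop (𝓝 1) := by
      simpa using (tendsto_const_nhds (x := (1 : ℝ))).add
        ((tendsto_const_nhds (x := Real.log 2)).div_atTop Real.tendsto_log_atTop)
    refine tendsto_of_tendsto_of_tendsto_of_le_of_le' tendsto_const_nhds hup ?_ ?_ <;>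
      filter_upwards [eventually_ge_atTop 2] with x hx <;>
      have hl : 0 < Real.log x := Real.log_pos (by linarith)
    · rw [le_div_iff₀ hl, one_mul]
      exact Real.log_le_log (by linarith) (Nat.lt_floor_add_one x).le
    · rw [div_le_iff₀ hl, add_mul, one_mul, div_mul_cancel₀ _ hl.ne',
        ← Real.log_mul (by linarith) two_ne_zero]
      exact Real.log_le_log (by positivity) (by linarith [Nat.floor_le (show 0 ≤ x by linarith)])
  have h' := (hmain.comp tendsto_nat_floor_atTop).mul (hratio.pow (m + 1))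
  rw [one_pow, mul_one] at h'
  refine h'.congr' ?_
  filter_upwards [eventually_ge_atTop 2] with x hx
  have hl : Real.log x ≠ 0 := (Real.log_pos (by linarith)).ne'
  have hf : 0 < Real.log ((⌊x⌋₊ : ℝ) + 1) := Real.log_pos (by
    have : 1 ≤ ⌊x⌋₊ := Nat.le_floor (by norm_num; linarith)
    have : (1 : ℝ) ≤ ⌊x⌋₊ := by exact_mod_cast this
    linarith)
  simp only [Function.comp, div_pow]
  field_simp

/-- **The mean value of a product.** -/
theorem mean_mul {u b : ArithmeticFunction ℝ} (hu : ∀ n, 0 ≤ u n) (hb : ∀ n, 0 ≤ b n) (m : ℕ)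
    {R c : ℝ} (hA : Tendsto (fun x => partialSum u x / x) atTop (𝓝 R))
    (hB : Tendsto (fun x => partialSum b x / (x * Real.log x ^ m)) atTop (𝓝 c)) :
    Tendsto (fun x => partialSum (u * b) x / (x * Real.log x ^ (m + 1))) atTop
      (𝓝 (R * (c / ((m : ℝ) + 1)))) := by
  set L := fun x : ℝ => logSum b ⌊x⌋₊
  have hL := tendsto_logSum m hB
  have hL0 : ∀ x, 0 ≤ L x := fun x => sum_nonneg fun n _ => div_nonneg (hb n) n.cast_nonneg
  have hsmall : ∀ K : ℝ, Tendsto (fun x => K * (partialSum b x / (x * Real.log x ^ (m + 1))))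
      atTop (𝓝 0) := fun K => by
    have h := (hB.mul (Real.tendsto_log_atTop.inv_tendsto_atTop)).const_mul K
    rw [mul_zero, mul_zero] at h
    refine h.congr fun x => ?_
    rw [pow_succ, Pi.inv_apply, ← mul_assoc x, ← div_eq_mul_inv, div_div]
  have main : Tendsto (fun x => (partialSum (u * b) x - R * x * L x) /
      (x * Real.log x ^ (m + 1))) atTop (𝓝 0) := by
    rw [NormedAddGroup.tendsto_nhds_zero]
    intro ε hε
    set δ := ε / (2 * (|c / ((m : ℝ) + 1)| + 1))
    have hδ : 0 < δ := by positivity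
    obtain ⟨y₀, hy₀⟩ := eventually_atTop.mp
      ((NormedAddGroup.tendsto_nhds_zero.mp (tendsto_sub_nhds_zero_iff.mpr hA) δ hδ).and
        (eventually_ge_atTop (1 : ℝ)))
    set K := partialSum u y₀ + |R| * y₀
    have hK : ∀ y : ℝ, 1 ≤ y → |partialSum u y - R * y| ≤ δ * y + K := fun y hy => by
      rcases le_total y₀ y with h | h
      · have h1 := (hy₀ y h).1.le
        rw [Real.norm_eq_abs, div_sub' (by linarith), abs_div, abs_of_pos (show 0 < y by linarith),
          div_le_iff₀ (by linarith), mul_comm y R] at h1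
        refine h1.trans (le_add_of_nonneg_right (add_nonneg (partialSum_nonneg hu _) ?_))
        exact mul_nonneg (abs_nonneg R) (le_trans (by linarith) (hy₀ y₀ le_rfl).2)
      · refine (abs_sub _ _).trans (le_add_of_nonneg_of_le (by positivity) (add_le_add ?_ ?_))
        · rw [abs_of_nonneg (partialSum_nonneg hu y)]
          exact partialSum_mono hu h
        · rw [abs_mul, abs_of_pos (show 0 < y by linarith)]
          exact mul_le_mul_of_nonneg_left h (abs_nonneg R)
    have hev1 := hL.eventually_le_const (show c / ((m : ℝ) + 1) < |c / ((m : ℝ) + 1)| + 1 by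
      linarith [le_abs_self (c / ((m : ℝ) + 1))])
    have hev2 := (hsmall K).eventually_lt_const (show (0 : ℝ) < ε / 2 by linarith)
    filter_upwards [hev1, hev2, eventually_gt_atTop 1] with x h1 h2 hx
    have hden : 0 < x * Real.log x ^ (m + 1) :=
      mul_pos (by linarith) (pow_pos (Real.log_pos hx) _)
    have hb2 : |partialSum (u * b) x - R * x * L x| ≤ δ * x * L x + K * partialSum b x := by
      rw [mul_comm u b, partialSum_mul]
      simp only [L, logSum, partialSum, mul_sum, ← sum_sub_distrib, ← sum_add_distrib]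
      refine (abs_sum_le_sum_abs _ _).trans (sum_le_sum fun n hn => ?_)
      obtain ⟨hn0, hnx⟩ := Finset.mem_Ioc.mp hn
      have hn1 : (0 : ℝ) < n := Nat.cast_pos.mpr hn0
      have hxn : 1 ≤ x / n :=
        (one_le_div hn1).mpr ((Nat.le_floor_iff (by linarith)).mp hnx)
      rw [← mul_sum, show b n * (∑ i ∈ Finset.Ioc 0 ⌊x / n⌋₊, u i) - R * x * (b n / n) =
        b n * ((∑ i ∈ Finset.Ioc 0 ⌊x / n⌋₊, u i) - R * (x / n)) by ring, abs_mul,
        abs_of_nonneg (hb n)]
      refine (mul_le_mul_of_nonneg_left (hK _ hxn) (hb n)).trans_eq ?_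
      ring
    rw [Real.norm_eq_abs, abs_div, abs_of_pos hden, div_lt_iff₀ hden]
    refine hb2.trans_lt ?_
    rw [div_le_iff₀ (pow_pos (Real.log_pos hx) _)] at h1
    rw [mul_div_assoc', div_lt_iff₀ hden] at h2
    have h3 : δ * x * L x ≤ ε / 2 * (x * Real.log x ^ (m + 1)) := by
      refine (mul_le_mul_of_nonneg_left h1 (by positivity)).trans_eq ?_
      simp only [δ]
      field_simp
    calc δ * x * L x + K * partialSum b x
        < ε / 2 * (x * Real.log x ^ (m + 1)) + ε / 2 * (x * Real.log x ^ (m + 1)) :=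
          add_lt_add_of_le_of_lt h3 h2
      _ = ε * (x * Real.log x ^ (m + 1)) := by ring
  have h := main.add (hL.const_mul R)
  rw [zero_add] at h
  refine h.congr' ?_
  filter_upwards [eventually_gt_atTop 1] with x hx
  have hl : Real.log x ≠ 0 := (Real.log_pos hx).ne'
  have hx0 : x ≠ 0 := by linarith
  simp only [L]
  field_simp
  ring

end FA.WrightAbelian
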