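import Fermat.Agent.ElementaryAbelianCount.CyclicMeans
import Fermat.Agent.WrightAbelian.Arith
import Fermat.Agent.WrightAbelian.ConvMean

/-!
# The powers of the ideal counts of `ℚ(μ_ℓ)` and their inverses

The inverse of the ideal count is the product of the twisted Möbius functions over all characters
mod `ℓ`: tame, equal to `-(ℓ - 1)` or `0` at a prime `p ≠ ℓ` as `p ≡ 1 (mod ℓ)` or not, with
positive local series at `1 / p`. The `b`-th power of the count has sums `~ R ^ b x (log x) ^ (b-1)`
up to `(b - 1)!`.
-/

set_option autoImplicit false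
set_option linter.style.haveILetI false

noncomputable section

open ArithmeticFunction DirichletCharacter NumberField Filter Topology
open FA.AbelianQuartic (Tame locSum partialSum)
open FA.ElementaryAbelianCount (charFun charStep cplxFun cplxFun_apply cplxFun_mul cplxFun_injective
  conjFun conjFun_mul conjFun_cplxFun idealCnt idealCnt_nonneg tendsto_idealCnt charFactor
  charStep_mul_charFun cplxFun_idealCnt charFun_isMultiplicative mul_charStep_prime
  charFun_bound charStep_prime_pow sum_primitive prod_primitive)
open scoped Classical Nat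

namespace FA.WrightAbelian

variable (l : ℕ) [hl : Fact l.Prime]

/-- The product of the twisted Möbius functions. -/
def stepFun (t : Finset (DirichletCharacter ℂ l)) : ArithmeticFunction ℂ := ∏ χ ∈ t, charStep χ

theorem stepFun_local (t : Finset (DirichletCharacter ℂ l)) {p : ℕ} (hp : p.Prime) :
    stepFun l t 1 = 1 ∧
    (∀ e, t.card < e → stepFun l t (p ^ e) = 0) ∧
    (∀ e, ‖stepFun l t (p ^ e)‖ ≤ 2 ^ t.card) ∧
    stepFun l t p = -∑ χ ∈ t, χ.primitiveCharacter p ∧
    ∀ x : ℂ, HasSum (fun e => stepFun l t (p ^ e) * x ^ e)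
      (∏ χ ∈ t, (1 - χ.primitiveCharacter p * x)) := by
  induction t using Finset.induction_on with
  | empty =>
    have h0 : stepFun l ∅ = 1 := Finset.prod_empty
    have hval : ∀ e, (1 : ArithmeticFunction ℂ) (p ^ e) = if e = 0 then 1 else 0 := fun e => by
      rw [one_apply]
      refine if_congr ⟨fun h => (Nat.pow_eq_one.mp h).resolve_left hp.ne_one,
        fun h => by rw [h, pow_zero]⟩ rfl rfl
    rw [h0]
    refine ⟨rfl, fun e he => by rw [hval, if_neg (by simp at he; omega)],
      fun e => by rw [hval, Finset.card_empty, pow_zero]; split_ifs <;> simp, ?_, fun x => ?_⟩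
    · rw [one_apply, if_neg hp.ne_one, Finset.sum_empty, neg_zero]
    · refine (hasSum_ite_eq (0 : ℕ) (1 : ℂ)).congr_fun fun e => ?_
      rw [hval]
      split_ifs with h
      · rw [h, pow_zero, one_mul]
      · rw [zero_mul]
  | insert a t ha ih =>
    obtain ⟨h1, hvan, hbd, hprime, hsum⟩ := ih
    set c := a.primitiveCharacter p
    have hF : stepFun l (insert a t) = stepFun l t * charStep a := by
      rw [stepFun, stepFun, Finset.prod_insert ha, mul_comm]
    have hs : ∀ e, stepFun l (insert a t) (p ^ (e + 1)) =
        stepFun l t (p ^ (e + 1)) - c * stepFun l t (p ^ e) :=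
      fun e => hF ▸ mul_charStep_prime l _ a hp e
    have hone : stepFun l (insert a t) 1 = 1 := by
      rw [hF, mul_apply_one, h1, one_mul, ← pow_zero p, charStep_prime_pow l a hp, if_pos rfl]
    rw [Finset.card_insert_of_notMem ha]
    refine ⟨hone, fun e he => ?_, fun e => ?_, ?_, fun x => ?_⟩
    · obtain ⟨i, rfl⟩ : ∃ i, e = i + 1 := ⟨e - 1, by omega⟩
      rw [hs, hvan _ (by omega), hvan _ (by omega), mul_zero, sub_zero]
    · rw [pow_succ, mul_two]
      have hb := hbd e
      rcases e with _ | i
      · rw [pow_zero, hone, ← h1]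
        rw [pow_zero] at hb
        exact hb.trans (le_add_of_nonneg_right (by positivity))
      · rw [hs]
        refine (norm_sub_le _ _).trans (add_le_add hb ?_)
        rw [norm_mul]
        exact (mul_le_of_le_one_left (norm_nonneg _) (charFun_bound l a p)).trans (hbd i)
    · have h := hs 0
      rw [zero_add, pow_one, pow_zero, h1, mul_one, hprime] at h
      rw [h, Finset.sum_insert ha]
      ring
    · refine (hasSum_nat_add_iff' 1).mp ?_
      have hu := (hasSum_nat_add_iff' 1).mpr (hsum x)
      have hv := (hsum x).mul_left (c * x)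
      have h := (hu.sub hv).congr_fun
        (g := fun e => stepFun l (insert a t) (p ^ (e + 1)) * x ^ (e + 1)) fun e => by
          rw [hs, pow_succ]
          ring
      convert h using 1
      rw [Finset.prod_insert ha, Finset.sum_range_one, Finset.sum_range_one, pow_zero, pow_zero,
        h1, hone]
      ring

/-- The inverse of the ideal count. -/
def idealInv : ArithmeticFunction ℝ := ⟨fun n => (stepFun l Finset.univ n).re, by simp⟩

theorem cplxFun_idealInv : cplxFun (idealInv l) = stepFun l Finset.univ := by
  haveI : IsCyclotomicExtension {l} ℚ (CyclotomicField l ℚ) :=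
    CyclotomicField.isCyclotomicExtension l ℚ
  set A := cplxFun (idealCnt (CyclotomicField l ℚ))
  set B := stepFun l Finset.univ
  have h : B * A = 1 := FA.ElementaryAbelianCount.steps_mul_idealCnt l (CyclotomicField l ℚ)
  have h' : conjFun B * A = 1 := by
    rw [← (show conjFun A = A from conjFun_cplxFun _), ← conjFun_mul, h]
    ext n
    simp only [conjFun, ArithmeticFunction.coe_mk, one_apply]
    split_ifs <;> simp
  have hreal : conjFun B = B :=
    calc conjFun B = conjFun B * (A * B) := by rw [mul_comm A B, h, mul_one]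
      _ = B := by rw [← mul_assoc, h', one_mul]
  ext n
  exact Complex.conj_eq_iff_re.mp (DFunLike.congr_fun hreal n)

theorem idealInv_cast (n : ℕ) : (idealInv l n : ℂ) = stepFun l Finset.univ n :=
  DFunLike.congr_fun (cplxFun_idealInv l) n

theorem idealInv_mul (K : Type*) [Field K] [NumberField K] [IsCyclotomicExtension {l} ℚ K] :
    idealInv l * idealCnt K = 1 := by
  refine cplxFun_injective ?_
  rw [cplxFun_mul, cplxFun_idealInv]
  refine (FA.ElementaryAbelianCount.steps_mul_idealCnt l K).trans ?_
  ext n
  rw [cplxFun_apply, one_apply, one_apply]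
  split_ifs <;> simp

theorem idealInv_isMultiplicative : (idealInv l).IsMultiplicative := by
  have hm : (stepFun l Finset.univ).IsMultiplicative :=
    Finset.prod_induction _ _ (fun _ _ h h' => h.mul h') isMultiplicative_one fun χ _ =>
      isMultiplicative_moebius.intCast.pmul (charFun_isMultiplicative χ)
  refine IsMultiplicative.iff_ne_zero.mpr ⟨Complex.ofReal_inj.mp ?_,
    fun {m n} _ _ hc => Complex.ofReal_inj.mp ?_⟩
  · rw [idealInv_cast, hm.map_one, Complex.ofReal_one]
  · rw [Complex.ofReal_mul, idealInv_cast, idealInv_cast, idealInv_cast, hm.map_mul_of_coprime hc]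

theorem tame_idealInv :
    Tame (idealInv l) (Fintype.card (DirichletCharacter ℂ l) + 1)
      (2 ^ Fintype.card (DirichletCharacter ℂ l)) := by
  intro p hp e
  obtain ⟨-, hvan, hbd, -⟩ := stepFun_local l Finset.univ hp
  refine ⟨fun he => Complex.ofReal_inj.mp ?_, (Complex.abs_re_le_norm _).trans (hbd e)⟩
  rw [idealInv_cast, hvan e (by simpa using he), Complex.ofReal_zero]

theorem idealInv_prime {p : ℕ} (hp : p.Prime) (hpl : p ≠ l) :
    idealInv l p = if p % l = 1 then -((l : ℝ) - 1) else 0 := by
  refine Complex.ofReal_inj.mp ?_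
  rw [idealInv_cast, (stepFun_local l Finset.univ hp).2.2.2.1, sum_primitive l p hp, if_neg hpl]
  split_ifs <;> simp

theorem locSum_idealInv {p : ℕ} (hp : p.Prime) (x : ℝ) :
    locSum (idealInv l) p x = charFactor l p x := by
  obtain ⟨-, -, -, -, hsum⟩ := stepFun_local l Finset.univ hp
  refine Complex.ofReal_inj.mp ?_
  rw [locSum, Complex.ofReal_tsum]
  refine Eq.trans ?_ ((hsum (x : ℂ)).tsum_eq.trans (prod_primitive l hp x))
  exact tsum_congr fun e => by push_cast; rw [idealInv_cast]

theorem charFactor_pos {p : ℕ} (hp : p.Prime) : 0 < charFactor l p (p : ℝ)⁻¹ := by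
  have h0 : (0 : ℝ) < (p : ℝ)⁻¹ := inv_pos.mpr (Nat.cast_pos.mpr hp.pos)
  have h1 : (p : ℝ)⁻¹ < 1 := inv_lt_one_of_one_lt₀ (Nat.one_lt_cast.mpr hp.one_lt)
  unfold charFactor
  split_ifs with hpl
  · linarith
  · obtain ⟨hpos, -, -⟩ := FA.ElementaryAbelianCount.order_facts l hp hpl
    exact pow_pos (sub_pos.mpr (pow_lt_one₀ h0.le h1 hpos.ne')) _

/-- **The powers of the ideal count.** -/
theorem tendsto_idealPow (K : Type*) [Field K] [NumberField K] (b : ℕ) :
    (∀ n, 0 ≤ (idealCnt K ^ (b + 1)) n) ∧
    Tendsto (fun x => partialSum (idealCnt K ^ (b + 1)) x / (x * Real.log x ^ b)) atTop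
      (𝓝 (dedekindZeta_residue K ^ (b + 1) / (b ! : ℝ))) := by
  induction b with
  | zero => simpa using ⟨idealCnt_nonneg K, tendsto_idealCnt K⟩
  | succ b ih =>
    obtain ⟨hnn, hlim⟩ := ih
    rw [pow_succ' (idealCnt K) (b + 1)]
    refine ⟨fun n => ?_, ?_⟩
    · rw [mul_apply]
      exact Finset.sum_nonneg fun x _ => mul_nonneg (idealCnt_nonneg K _) (hnn _)
    · have h := mean_mul (idealCnt_nonneg K) hnn b (tendsto_idealCnt K) hlim
      convert h using 2
      rw [Nat.factorial_succ, pow_succ']
      push_cast
      field_simp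

end FA.WrightAbelian
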